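import Fermat.Agent.Lib.HopfOrderGen
import Fermat.Agent.Lib.InertiaLift

/-!
# Hopf orders from LOCAL generators (item 71 / S19): definitions and interface statements

`Fermat.Agent.Lib.HopfOrder.flat_of_generators` needs generators which are equivariant for the
whole group `G_ℚ`.  Geometry produces generators which are only equivariant for the inertia
group `I` of ONE place `A` over `ℓ` (charts centred at unramified points, idempotents of the
fibres of the reduction map), such that the `A`-algebra `H_A` they generate is stable under the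
decomposition group `D` of `A`.  `Stmt_LocalGen` says that this is enough.

All statements here are `Prop`s; nothing is assumed in this file.

* `genRing A h` : the subring of `M → ℚ̄` generated by the constants of `A` and the `h j`.
* `twist act σ f = fun x => σ (f (act σ⁻¹ x))` : the semilinear action of `G_ℚ` on functions.
* `Stmt_F1`, `Stmt_F2` : the two facts of ramification theory used by the descent.
* `Stmt_CL` : closure of `genRing` / `pairRing` under `ℓ`-adic approximation.
* `Stmt_LocalGen` : the local generator criterion.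
-/

set_option autoImplicit false

namespace Fermat.Agent.Lib.HopfOrderLoc

open Fermat.Agent.Lib.HopfOrder

/-- The subring of functions `M → K` generated by the constants of `A` and the functions `h j`. -/
def genRing {K M ι : Type} [Field K] (A : Subring K) (h : ι → M → K) : Subring (M → K) :=
  Subring.closure ({g | ∃ a ∈ A, g = fun _ => a} ∪ Set.range h)

/-- The semilinear action of the Galois group on functions `M → ℚ̄`. -/
noncomputable def twist {M : Type} (act : (AlgebraicClosure ℚ ≃ₐ[ℚ] AlgebraicClosure ℚ) → M → M)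
    (σ : AlgebraicClosure ℚ ≃ₐ[ℚ] AlgebraicClosure ℚ) (f : M → AlgebraicClosure ℚ) :
    M → AlgebraicClosure ℚ :=
  fun x => σ (f (act σ⁻¹ x))

/-- **(F1)** Let `H = I ⊔ Gal(ℚ̄/L)` with `L` a number field.  If no element of the coset `γ H`
lies in the decomposition group `D` of `A`, then the places `A` and `γ⁻¹ A` are already
different on the fixed field of `H`: some `H`-fixed algebraic integer `x` is a unit at `A` while
`γ x` is not. -/
def Stmt_F1 : Prop :=
  ∀ (ℓ : ℕ), ℓ.Prime → ∀ (A : ValuationSubring (AlgebraicClosure ℚ)), A.LiesOverPrime ℓ →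
  ∀ (L : IntermediateField ℚ (AlgebraicClosure ℚ)), FiniteDimensional ℚ L →
  ∀ γ : AlgebraicClosure ℚ ≃ₐ[ℚ] AlgebraicClosure ℚ,
    (∀ h ∈ A.inertiaSubgroupIn ℚ ⊔ L.fixingSubgroup, γ * h ∉ A.decompositionSubgroup ℚ) →
    ∃ x : AlgebraicClosure ℚ, IsIntegral ℤ x ∧
      (∀ h ∈ A.inertiaSubgroupIn ℚ ⊔ L.fixingSubgroup, h x = x) ∧
      A.valuation x = 1 ∧ A.valuation (γ x) < 1

/-- **(F2)** Let `H = I ⊔ Gal(ℚ̄/L)` with `L / ℚ` finite and normal.  An element of the
decomposition group which is congruent to the identity modulo the maximal ideal of `A` on all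
`H`-fixed algebraic integers lies in `H`.  (The fixed field of `H` has the full residue field of
`L`, and inertia lifts: `InertiaLift.exists_mem_inertiaSubgroupIn_eqOn`.) -/
def Stmt_F2 : Prop :=
  ∀ (ℓ : ℕ), ℓ.Prime → ∀ (A : ValuationSubring (AlgebraicClosure ℚ)), A.LiesOverPrime ℓ →
  ∀ (L : IntermediateField ℚ (AlgebraicClosure ℚ)), FiniteDimensional ℚ L → Normal ℚ L →
  ∀ σ ∈ A.decompositionSubgroup ℚ,
    (∀ x : AlgebraicClosure ℚ, IsIntegral ℤ x →
      (∀ h ∈ A.inertiaSubgroupIn ℚ ⊔ L.fixingSubgroup, h x = x) →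
      A.valuation (σ x - x) < 1) →
    σ ∈ A.inertiaSubgroupIn ℚ ⊔ L.fixingSubgroup

/-- **(CL)**, abstract form: let `T` be a ring of `A`-valued functions on a finite set `S`
containing the constants of `A` and separating the points of `S`.  A function which can be
approximated modulo `ℓ ^ n` by elements of `T`, for every `n`, lies in `T`. -/
def Stmt_CL : Prop :=
  ∀ (ℓ : ℕ), ℓ.Prime → ∀ (A : ValuationSubring (AlgebraicClosure ℚ)), A.LiesOverPrime ℓ →
  ∀ (S : Type) [Finite S] (T : Subring (S → AlgebraicClosure ℚ)),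
    (∀ a ∈ A, (fun _ : S => a) ∈ T) → (∀ g ∈ T, ∀ s, g s ∈ A) →
    (∀ s s' : S, s ≠ s' → ∃ g ∈ T, g s ≠ g s') →
    ∀ φ : S → AlgebraicClosure ℚ,
      (∀ n : ℕ, ∃ ψ ∈ T, ∀ s, ∃ a ∈ A, φ s - ψ s = (ℓ : AlgebraicClosure ℚ) ^ n * a) →
      φ ∈ T

/-- **The local generator criterion.**  `M` a finite abelian group with an action of `G_ℚ`
through a finite quotient, `A` a valuation subring of `ℚ̄` over `ℓ` with inertia group `I` and
decomposition group `D`.  Given finitely many functions `h j : M → ℚ̄` such that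

* `h j` has values in `A` and is `I`-equivariant,
* for `σ ∈ D` the function `twist act σ (h j)` lies in `genRing A h`,
* the `h j` separate the points of `M`,
* `(x, y) ↦ h j (x + y)` lies in `pairRing A h`,

the group `M` is flat at `ℓ` in the sense of the prelude (`GaloisRepAdic.IsFlatAt`, frozen S19).
-/
def Stmt_LocalGen : Prop :=
  ∀ (ι : Type) [Finite ι] (ℓ : ℕ), ℓ.Prime →
  ∀ (M : Type) [AddCommGroup M] [Finite M]
    (A : ValuationSubring (AlgebraicClosure ℚ)), A.LiesOverPrime ℓ →
  ∀ (act : (AlgebraicClosure ℚ ≃ₐ[ℚ] AlgebraicClosure ℚ) → M → M)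
    (h : ι → M → AlgebraicClosure ℚ),
    (∀ x, act 1 x = x) → (∀ σ τ x, act (σ * τ) x = act σ (act τ x)) →
    (∀ σ x y, act σ (x + y) = act σ x + act σ y) →
    (∃ L : IntermediateField ℚ (AlgebraicClosure ℚ), FiniteDimensional ℚ L ∧
      ∀ σ ∈ L.fixingSubgroup, ∀ x, act σ x = x) →
    (∀ j x, h j x ∈ A) →
    (∀ j, ∀ σ ∈ A.inertiaSubgroupIn ℚ, ∀ x, h j (act σ x) = σ (h j x)) →
    (∀ j, ∀ σ ∈ A.decompositionSubgroup ℚ, twist act σ (h j) ∈ genRing A.toSubring h) →
    (∀ x y, x ≠ y → ∃ j, h j x ≠ h j y) →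
    (∀ j, (fun q : M × M => h j (q.1 + q.2)) ∈ pairRing A.toSubring h) →
    ∃ (H' : Type) (_ : CommRing H') (_ : HopfAlgebra (GaloisRep.ratLocalizedAt ℓ) H'),
      Module.Finite (GaloisRep.ratLocalizedAt ℓ) H' ∧
      Module.Flat (GaloisRep.ratLocalizedAt ℓ) H' ∧
      Coalgebra.IsCocomm (GaloisRep.ratLocalizedAt ℓ) H' ∧
      ∃ e : WithConv (H' →ₐ[GaloisRep.ratLocalizedAt ℓ] AlgebraicClosure ℚ) ≃ M,
        (∀ f g : WithConv (H' →ₐ[GaloisRep.ratLocalizedAt ℓ] AlgebraicClosure ℚ),
          e (f * g) = e f + e g) ∧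
        ∀ (σ : AlgebraicClosure ℚ ≃ₐ[ℚ] AlgebraicClosure ℚ)
          (f g : WithConv (H' →ₐ[GaloisRep.ratLocalizedAt ℓ] AlgebraicClosure ℚ)),
          (∀ h : H', g h = σ (f h)) → e g = act σ (e f)

end Fermat.Agent.Lib.HopfOrderLoc
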