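import Fermat.Agent.Lib.HopfOrderLoc.Val

/-!
# Conductor and closure under `ℓ`-adic approximation (item 71 / S19, helper32)

`A` a valuation subring of `ℚ̄` over `ℓ`, `S` a finite set, `T` a ring of `A`-valued functions
on `S` containing the constants of `A` and separating the points of `S`.

* `exists_conductor` : there is `N` with `ℓ ^ N • φ ∈ T` for every `A`-valued function `φ`.
* `stmt_CL : Stmt_CL` : a function which is approximated modulo `ℓ ^ n` by elements of `T` for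
  every `n` lies in `T`.
* `genRing_closed`, `pairRing_closed` : the same for `genRing A h` and `pairRing A f`.
-/

set_option autoImplicit false
set_option linter.style.haveILetI false

namespace Fermat.Agent.Lib.HopfOrderLoc

open Fermat.Agent.Lib.HopfOrder

local notation "K" => AlgebraicClosure ℚ

section Conductor

variable (ℓ : ℕ) (hℓ : ℓ.Prime) (A : ValuationSubring K) (hA : A.LiesOverPrime ℓ)
variable {S : Type} [Finite S] (T : Subring (S → K))

include hℓ hA in
/-- **Conductor**: `ℓ ^ N • (all A-valued functions) ⊆ T`. -/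
theorem exists_conductor (hconst : ∀ a ∈ A, (fun _ : S => a) ∈ T)
    (hval : ∀ g ∈ T, ∀ s, g s ∈ A) (hsep : ∀ s s' : S, s ≠ s' → ∃ g ∈ T, g s ≠ g s') :
    ∃ N : ℕ, ∀ φ : S → K, (∀ s, φ s ∈ A) → (fun s => (ℓ : K) ^ N * φ s) ∈ T := by
  classical
  letI : Fintype S := Fintype.ofFinite S
  choose g hgT hg using hsep
  -- the Lagrange numerators
  let fac : S → S → (S → K) := fun s₀ s =>
    if h : s₀ ≠ s then g s₀ s h - (fun _ => g s₀ s h s) else 0
  have hfacT : ∀ s₀ s, fac s₀ s ∈ T := by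
    intro s₀ s
    by_cases h : s₀ ≠ s
    · simp only [fac, dif_pos h]
      exact T.sub_mem (hgT s₀ s h) (hconst _ (hval _ (hgT s₀ s h) s))
    · simp only [fac, dif_neg h]
      exact T.zero_mem
  let e : S → (S → K) := fun s₀ => ∏ s ∈ Finset.univ.erase s₀, fac s₀ s
  have heT : ∀ s₀, e s₀ ∈ T := fun s₀ => T.prod_mem (fun s _ => hfacT s₀ s)
  have he_off : ∀ s₀ s, s ≠ s₀ → e s₀ s = 0 := by
    intro s₀ s hs
    show (∏ s' ∈ Finset.univ.erase s₀, fac s₀ s') s = 0
    rw [Finset.prod_apply]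
    apply Finset.prod_eq_zero (Finset.mem_erase.mpr ⟨hs, Finset.mem_univ s⟩)
    have h : s₀ ≠ s := fun h => hs h.symm
    simp only [fac, dif_pos h]
    simp
  have he_diag : ∀ s₀, e s₀ s₀ ≠ 0 := by
    intro s₀
    show (∏ s' ∈ Finset.univ.erase s₀, fac s₀ s') s₀ ≠ 0
    rw [Finset.prod_apply]
    apply Finset.prod_ne_zero_iff.mpr
    intro s hs
    have h : s₀ ≠ s := fun h => (Finset.mem_erase.mp hs).1 h.symm
    simp only [fac, dif_pos h]
    show g s₀ s h s₀ - g s₀ s h s ≠ 0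
    exact sub_ne_zero.mpr (hg s₀ s h)
  choose Ns hNs using fun s₀ => exists_pow_prime_le ℓ hℓ A hA (e s₀ s₀) (he_diag s₀)
  refine ⟨Finset.univ.sup Ns, fun φ hφ => ?_⟩
  set N := Finset.univ.sup Ns with hN
  have hℓle : A.valuation (ℓ : K) ≤ 1 := by
    have h : (ℓ : K) ∈ A.nonunits := hA
    exact le_of_lt (A.mem_nonunits_iff.mp h)
  -- the coefficients
  have hc : ∀ s₀, (ℓ : K) ^ N / e s₀ s₀ ∈ A := by
    intro s₀
    rw [← A.valuation_le_one_iff, map_div₀, div_le_one₀ ((Valuation.pos_iff _).mpr (he_diag s₀))]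
    calc A.valuation ((ℓ : K) ^ N) = A.valuation (ℓ : K) ^ N := map_pow _ _ _
      _ ≤ A.valuation (ℓ : K) ^ Ns s₀ :=
          valuation_pow_le_of_le A _ hℓle (Finset.le_sup (Finset.mem_univ s₀))
      _ = A.valuation ((ℓ : K) ^ Ns s₀) := (map_pow _ _ _).symm
      _ ≤ _ := hNs s₀
  have hsum : (fun s => (ℓ : K) ^ N * φ s) =
      ∑ s₀, (fun _ : S => φ s₀ * ((ℓ : K) ^ N / e s₀ s₀)) * e s₀ := by
    funext s
    rw [Finset.sum_apply, Finset.sum_eq_single s]
    · show (ℓ : K) ^ N * φ s = φ s * ((ℓ : K) ^ N / e s s) * e s s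
      field_simp [he_diag s]
    · intro s₀ _ hs₀
      show φ s₀ * ((ℓ : K) ^ N / e s₀ s₀) * e s₀ s = 0
      rw [he_off s₀ s (fun h => hs₀ h.symm), mul_zero]
    · intro h
      exact absurd (Finset.mem_univ s) h
  rw [hsum]
  exact T.sum_mem (fun s₀ _ => T.mul_mem (hconst _ (A.mul_mem _ _ (hφ s₀) (hc s₀))) (heT s₀))

include hℓ hA in
/-- **(CL)**: closure under `ℓ`-adic approximation. -/
theorem mem_of_approx (hconst : ∀ a ∈ A, (fun _ : S => a) ∈ T)
    (hval : ∀ g ∈ T, ∀ s, g s ∈ A) (hsep : ∀ s s' : S, s ≠ s' → ∃ g ∈ T, g s ≠ g s')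
    (φ : S → K)
    (happ : ∀ n : ℕ, ∃ ψ ∈ T, ∀ s, ∃ a ∈ A, φ s - ψ s = (ℓ : K) ^ n * a) : φ ∈ T := by
  obtain ⟨N, hN⟩ := exists_conductor ℓ hℓ A hA T hconst hval hsep
  obtain ⟨ψ, hψ, hφψ⟩ := happ N
  choose a ha hφa using hφψ
  have h1 : φ = ψ + fun s => (ℓ : K) ^ N * a s := by
    funext s
    show φ s = ψ s + (ℓ : K) ^ N * a s
    rw [← hφa s]
    ring
  rw [h1]
  exact T.add_mem hψ (hN a ha)

end Conductor

/-- The statement `Stmt_CL` of `Defs.lean`. -/
theorem stmt_CL : Stmt_CL := by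
  intro ℓ hℓ A hA S _ T hconst hval hsep φ happ
  exact mem_of_approx ℓ hℓ A hA T hconst hval hsep φ happ

section Gen

variable {M ι : Type}

lemma const_mem_genRing (A : Subring K) (h : ι → M → K) {a : K} (ha : a ∈ A) :
    (fun _ : M => a) ∈ genRing A h :=
  Subring.subset_closure (Or.inl ⟨a, ha, rfl⟩)

lemma gen_mem_genRing (A : Subring K) (h : ι → M → K) (j : ι) : h j ∈ genRing A h :=
  Subring.subset_closure (Or.inr ⟨j, rfl⟩)

/-- The values of the elements of `genRing` lie in `A`. -/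
lemma genRing_val_mem (A : Subring K) (h : ι → M → K) (hA : ∀ j x, h j x ∈ A)
    {g : M → K} (hg : g ∈ genRing A h) (x : M) : g x ∈ A := by
  induction hg using Subring.closure_induction with
  | mem g hg =>
    rcases hg with ⟨a, ha, rfl⟩ | ⟨j, rfl⟩
    · exact ha
    · exact hA j _
  | zero => exact A.zero_mem
  | one => exact A.one_mem
  | add g g' _ _ hg hg' => exact A.add_mem hg hg'
  | neg g _ hg => exact A.neg_mem hg
  | mul g g' _ _ hg hg' => exact A.mul_mem hg hg'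

/-- **(CL) for `genRing`**. -/
theorem genRing_closed [Finite M] (ℓ : ℕ) (hℓ : ℓ.Prime) (A : ValuationSubring K)
    (hA : A.LiesOverPrime ℓ) (h : ι → M → K) (integral : ∀ j x, h j x ∈ A)
    (separates : ∀ x y, x ≠ y → ∃ j, h j x ≠ h j y) (φ : M → K)
    (happ : ∀ n : ℕ, ∃ ψ ∈ genRing A.toSubring h,
      ∀ x, ∃ a ∈ A, φ x - ψ x = (ℓ : K) ^ n * a) :
    φ ∈ genRing A.toSubring h :=
  mem_of_approx ℓ hℓ A hA (genRing A.toSubring h)
    (fun _ ha => const_mem_genRing A.toSubring h ha)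
    (fun _ hg x => genRing_val_mem A.toSubring h integral hg x)
    (fun x y hxy => by
      obtain ⟨j, hj⟩ := separates x y hxy
      exact ⟨h j, gen_mem_genRing A.toSubring h j, hj⟩) φ happ

/-- The conductor of `genRing`. -/
theorem genRing_conductor [Finite M] (ℓ : ℕ) (hℓ : ℓ.Prime) (A : ValuationSubring K)
    (hA : A.LiesOverPrime ℓ) (h : ι → M → K) (integral : ∀ j x, h j x ∈ A)
    (separates : ∀ x y, x ≠ y → ∃ j, h j x ≠ h j y) :
    ∃ N : ℕ, ∀ φ : M → K, (∀ x, φ x ∈ A) →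
      (fun x => (ℓ : K) ^ N * φ x) ∈ genRing A.toSubring h :=
  exists_conductor ℓ hℓ A hA (genRing A.toSubring h)
    (fun _ ha => const_mem_genRing A.toSubring h ha)
    (fun _ hg x => genRing_val_mem A.toSubring h integral hg x)
    (fun x y hxy => by
      obtain ⟨j, hj⟩ := separates x y hxy
      exact ⟨h j, gen_mem_genRing A.toSubring h j, hj⟩)

/-- **(CL) for `pairRing`**. -/
theorem pairRing_closed [AddCommGroup M] [Finite M] (ℓ : ℕ) (hℓ : ℓ.Prime) (A : ValuationSubring K)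
    (hA : A.LiesOverPrime ℓ) (f : ι → M → K) (integral : ∀ j x, f j x ∈ A)
    (separates : ∀ x y, x ≠ y → ∃ j, f j x ≠ f j y) (φ : M × M → K)
    (happ : ∀ n : ℕ, ∃ ψ ∈ pairRing A.toSubring f,
      ∀ q, ∃ a ∈ A, φ q - ψ q = (ℓ : K) ^ n * a) :
    φ ∈ pairRing A.toSubring f :=
  mem_of_approx ℓ hℓ A hA (pairRing A.toSubring f)
    (fun _ ha => const_mem_pairRing A.toSubring f ha)
    (fun _ hg q => pairRing_val_mem A.toSubring f integral hg q)
    (fun q q' hqq' => by
      by_cases h1 : q.1 = q'.1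
      · have h2 : q.2 ≠ q'.2 := fun h2 => hqq' (Prod.ext h1 h2)
        obtain ⟨j, hj⟩ := separates _ _ h2
        exact ⟨_, snd_mem_pairRing A.toSubring f j, hj⟩
      · obtain ⟨j, hj⟩ := separates _ _ h1
        exact ⟨_, fst_mem_pairRing A.toSubring f j, hj⟩) φ happ

end Gen

end Fermat.Agent.Lib.HopfOrderLoc
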