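import Fermat.Agent.Lib.HopfOrderLoc.Chars

/-!
# The approximating element (item 71, helper32)

`exists_approx`: given finitely many automorphisms `γ j` none of whose `H`-cosets meets the
decomposition group (`H = I ⊔ Gal(ℚ̄/L)`), and numbers `c j`, there is an `H`-fixed algebraic
integer `e`, a unit at `A`, such that `γ j e * c j` is divisible by `ℓ ^ N` for all `j`.
Uses `Stmt_F1` and the rank-one lemma `exists_pow_le`.
-/

set_option autoImplicit false
set_option linter.style.haveILetI false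
set_option linter.unusedSectionVars false

namespace Fermat.Agent.Lib.HopfOrderLoc

open Fermat.Agent.Lib.FrobExists

local notation "K" => AlgebraicClosure ℚ
local notation "GQ" => (AlgebraicClosure ℚ ≃ₐ[ℚ] AlgebraicClosure ℚ)

theorem exists_approx (hF1 : Stmt_F1) (ℓ : ℕ) (hℓ : ℓ.Prime) (A : ValuationSubring K)
    (hA : A.LiesOverPrime ℓ) (L : IntermediateField ℚ K) (hL : FiniteDimensional ℚ L)
    {J : Type} [Finite J] (γ : J → GQ) (c : J → K) (N : ℕ)
    (hγ : ∀ j, ∀ η ∈ A.inertiaSubgroupIn ℚ ⊔ L.fixingSubgroup,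
      γ j * η ∉ A.decompositionSubgroup ℚ) :
    ∃ e : K, e ∈ fixInt (A.inertiaSubgroupIn ℚ ⊔ L.fixingSubgroup) ∧ A.valuation e = 1 ∧
      ∀ j, A.valuation (γ j e * c j) ≤ A.valuation ((ℓ : K) ^ N) := by
  classical
  letI : Fintype J := Fintype.ofFinite J
  choose y hyint hyfix hy1 hyγ using fun j => hF1 ℓ hℓ A hA L hL (γ j) (hγ j)
  set H := A.inertiaSubgroupIn ℚ ⊔ L.fixingSubgroup with hH
  set Y : K := ∏ j, y j with hY
  have hYmem : Y ∈ fixInt H := Subring.prod_mem _ (fun j _ => ⟨hyint j, hyfix j⟩)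
  have hY1 : A.valuation Y = 1 := by
    rw [hY, map_prod]
    exact Finset.prod_eq_one (fun j _ => hy1 j)
  have hle : ∀ i j, A.valuation (γ j (y i)) ≤ 1 := fun i j =>
    valuation_le_one_of_isIntegral A _ (map_isIntegral_int (γ j) (hyint i))
  have hYγ : ∀ j, A.valuation (γ j Y) < 1 := by
    intro j
    rw [hY, map_prod, map_prod, ← Finset.mul_prod_erase _ _ (Finset.mem_univ j)]
    calc A.valuation (γ j (y j)) * ∏ i ∈ Finset.univ.erase j, A.valuation (γ j (y i))
        ≤ A.valuation (γ j (y j)) * 1 :=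
          mul_le_mul_right (Finset.prod_le_one' (fun i _ => hle i j)) _
      _ = A.valuation (γ j (y j)) := mul_one _
      _ < 1 := hyγ j
  -- the exponents
  have hex : ∀ j, ∃ n : ℕ, A.valuation (γ j Y) ^ n * A.valuation (c j) ≤
      A.valuation ((ℓ : K) ^ N) := by
    intro j
    by_cases hc : c j = 0
    · exact ⟨0, by rw [hc, map_zero, mul_zero]; exact zero_le⟩
    · have hℓ0 : (ℓ : K) ≠ 0 := by
        exact_mod_cast hℓ.ne_zero
      have ht : (ℓ : K) ^ N / c j ≠ 0 := div_ne_zero (pow_ne_zero _ hℓ0) hc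
      obtain ⟨n, hn⟩ := exists_pow_le ℓ hℓ A hA (γ j Y) _ (hYγ j) ht
      refine ⟨n, ?_⟩
      rw [map_div₀] at hn
      have hvc : 0 < A.valuation (c j) := (Valuation.pos_iff _).mpr hc
      exact (le_div_iff₀ hvc).mp hn
  choose n hn using hex
  set n₀ := Finset.univ.sup n with hn₀
  refine ⟨Y ^ n₀, Subring.pow_mem _ hYmem _, by rw [map_pow, hY1, one_pow], fun j => ?_⟩
  rw [map_pow, map_mul, map_pow]
  calc A.valuation (γ j Y) ^ n₀ * A.valuation (c j)
      ≤ A.valuation (γ j Y) ^ n j * A.valuation (c j) :=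
        mul_le_mul_left (valuation_pow_le_of_le A _ (le_of_lt (hYγ j))
          (Finset.le_sup (Finset.mem_univ j))) _
    _ ≤ _ := hn j

end Fermat.Agent.Lib.HopfOrderLoc
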