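import Fermat.Agent.Lib.HopfOrderLoc.Twist

/-!
# Residue characters on the fixed integers (item 71, helper32)

`fixInt H` is the ring of algebraic integers fixed by the subgroup `H` of the Galois group.
For `γ` in the Galois group, `resChar A H γ : fixInt H →+* A/m_A` is `x ↦ γ x mod m_A`.

* `resChar_eq_iff` : two characters agree at `x` iff `γ x - γ' x` lies in the maximal ideal.
* `exists_finsupp_resChar` : if the characters `resChar A H (r a)`, `a` in a finite set, are
  pairwise distinct, then every vector `t` is a linear combination of the vectors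
  `(resChar A H (r a) x)_a`  (Dedekind's independence of characters).
-/

set_option autoImplicit false
set_option linter.style.haveILetI false
set_option linter.unusedSectionVars false

namespace Fermat.Agent.Lib.HopfOrderLoc

open Fermat.Agent.Lib.FrobExists

local notation "K" => AlgebraicClosure ℚ
local notation "GQ" => (AlgebraicClosure ℚ ≃ₐ[ℚ] AlgebraicClosure ℚ)

/-- The ring of algebraic integers fixed by `H`. -/
def fixInt (H : Subgroup GQ) : Subring K where
  carrier := {x | IsIntegral ℤ x ∧ ∀ η ∈ H, η x = x}
  mul_mem' := fun {a b} ha hb => ⟨ha.1.mul hb.1, fun η hη => by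
    rw [map_mul, ha.2 η hη, hb.2 η hη]⟩
  one_mem' := ⟨isIntegral_one, fun η _ => map_one η⟩
  add_mem' := fun {a b} ha hb => ⟨ha.1.add hb.1, fun η hη => by
    rw [map_add, ha.2 η hη, hb.2 η hη]⟩
  zero_mem' := ⟨isIntegral_zero, fun η _ => map_zero η⟩
  neg_mem' := fun {a} ha => ⟨ha.1.neg, fun η hη => by rw [map_neg, ha.2 η hη]⟩

lemma mem_fixInt (H : Subgroup GQ) (x : K) :
    x ∈ fixInt H ↔ IsIntegral ℤ x ∧ ∀ η ∈ H, η x = x := Iff.rfl

/-- Conjugates of algebraic integers lie in every valuation subring. -/
lemma map_mem_of_isIntegral (A : ValuationSubring K) (γ : GQ) (x : K) (hx : IsIntegral ℤ x) :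
    γ x ∈ A :=
  (A.valuation_le_one_iff _).mp (valuation_le_one_of_isIntegral A _ (map_isIntegral_int γ hx))

/-- The ring homomorphism `x ↦ γ x` from the fixed integers to `A`. -/
noncomputable def conjHom (A : ValuationSubring K) (H : Subgroup GQ) (γ : GQ) :
    ↥(fixInt H) →+* ↥A :=
  RingHom.codRestrict ((γ : K →+* K).comp (fixInt H).subtype) A
    (fun x => map_mem_of_isIntegral A γ x x.2.1)

lemma conjHom_coe (A : ValuationSubring K) (H : Subgroup GQ) (γ : GQ) (x : ↥(fixInt H)) :
    ((conjHom A H γ x : ↥A) : K) = γ (x : K) := rfl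

/-- The residue character `x ↦ γ x mod m_A`. -/
noncomputable def resChar (A : ValuationSubring K) (H : Subgroup GQ) (γ : GQ) :
    ↥(fixInt H) →+* IsLocalRing.ResidueField ↥A :=
  (IsLocalRing.residue ↥A).comp (conjHom A H γ)

lemma resChar_apply (A : ValuationSubring K) (H : Subgroup GQ) (γ : GQ) (x : ↥(fixInt H)) :
    resChar A H γ x = IsLocalRing.residue ↥A (conjHom A H γ x) := rfl

/-- Equality of residues in terms of the valuation. -/
lemma residue_eq_iff (A : ValuationSubring K) (a b : ↥A) :
    IsLocalRing.residue ↥A a = IsLocalRing.residue ↥A b ↔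
      A.valuation ((a : K) - (b : K)) < 1 := by
  rw [← sub_eq_zero, ← map_sub, IsLocalRing.residue_eq_zero_iff,
    ValuationSubring.valuation_lt_one_iff]
  rfl

lemma resChar_eq_iff (A : ValuationSubring K) (H : Subgroup GQ) (γ γ' : GQ)
    (x : ↥(fixInt H)) :
    resChar A H γ x = resChar A H γ' x ↔ A.valuation (γ (x : K) - γ' (x : K)) < 1 := by
  rw [resChar_apply, resChar_apply, residue_eq_iff]
  rfl

/-- **Independence of characters**: if the residue characters `resChar A H (r a)` are pairwise
distinct, every vector is a linear combination of their value vectors. -/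
theorem exists_finsupp_resChar (A : ValuationSubring K) (H : Subgroup GQ)
    {I₀ : Type} [Fintype I₀] (r : I₀ → GQ)
    (hinj : Function.Injective (fun a => resChar A H (r a)))
    (t : I₀ → IsLocalRing.ResidueField ↥A) :
    ∃ c : ↥(fixInt H) →₀ IsLocalRing.ResidueField ↥A,
      ∀ a, (c.sum fun x b => b * resChar A H (r a) x) = t a := by
  classical
  -- linear independence of the characters
  have hli : LinearIndependent (IsLocalRing.ResidueField ↥A)
      (fun a : I₀ => (resChar A H (r a) : ↥(fixInt H) → IsLocalRing.ResidueField ↥A)) := by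
    have h1 := linearIndependent_monoidHom ↥(fixInt H) (IsLocalRing.ResidueField ↥A)
    have hinj' : Function.Injective
        (fun a : I₀ => ((resChar A H (r a)) : ↥(fixInt H) →* IsLocalRing.ResidueField ↥A)) := by
      intro a b hab
      apply hinj
      ext x
      exact DFunLike.congr_fun hab x
    exact h1.comp _ hinj'
  -- the value vectors
  let ev : ↥(fixInt H) → (I₀ → IsLocalRing.ResidueField ↥A) := fun x a => resChar A H (r a) x
  have htop : Submodule.span (IsLocalRing.ResidueField ↥A) (Set.range ev) = ⊤ := by
    by_contra hne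
    obtain ⟨f, hf0, hf⟩ := Submodule.exists_le_ker_of_lt_top _ (lt_top_iff_ne_top.mpr hne)
    apply hf0
    let g : I₀ → IsLocalRing.ResidueField ↥A := fun a => f (fun j => if a = j then 1 else 0)
    have hzero : ∀ a, g a = 0 := by
      rw [Fintype.linearIndependent_iff] at hli
      apply hli
      funext x
      have h2 : f (ev x) = 0 := hf (Submodule.subset_span ⟨x, rfl⟩)
      rw [LinearMap.pi_apply_eq_sum_univ f (ev x)] at h2
      simp only [Finset.sum_apply, Pi.smul_apply, smul_eq_mul, Pi.zero_apply]
      calc ∑ a, g a * resChar A H (r a) x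
          = ∑ a, ev x a • f (fun j => if a = j then 1 else 0) := by
            apply Finset.sum_congr rfl
            intro a _
            rw [smul_eq_mul, mul_comm]
        _ = 0 := h2
    refine LinearMap.ext fun v => ?_
    rw [LinearMap.pi_apply_eq_sum_univ f v]
    have hz' : ∀ a, f (fun j => if a = j then 1 else 0) = 0 := hzero
    simp [hz']
  have ht : t ∈ Submodule.span (IsLocalRing.ResidueField ↥A) (Set.range ev) := by
    rw [htop]; exact Submodule.mem_top
  obtain ⟨c, hc⟩ := Finsupp.mem_span_range_iff_exists_finsupp.mp ht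
  refine ⟨c, fun a => ?_⟩
  have := congrFun hc a
  rw [Finsupp.sum, Finset.sum_apply] at this
  rw [Finsupp.sum]
  exact this

end Fermat.Agent.Lib.HopfOrderLoc
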