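import Fermat.Agent.Lib.HopfOrderLoc.Approx

/-!
# `genRing` as a finitely generated `A`-module; the subgroup `I ⊔ Gal(ℚ̄/L)` (item 71, helper32)

* `genMod A h` : the `A`-submodule of `M → ℚ̄` underlying `genRing A h`; `genMod_fg`,
  `genMod_eq_span` (spanned by the monomials in the `h j`).
* `finiteIndex_sup` : `I ⊔ Gal(ℚ̄/L)` has finite index for a number field `L`.
* `fixer_of_sup` : monomials are fixed by `I ⊔ Gal(ℚ̄/L)`.
-/

set_option autoImplicit false
set_option linter.style.haveILetI false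
set_option linter.unusedSectionVars false

namespace Fermat.Agent.Lib.HopfOrderLoc

open Fermat.Agent.Lib.FrobExists Fermat.Agent.Lib.InertiaBridge

local notation "K" => AlgebraicClosure ℚ
local notation "GQ" => (AlgebraicClosure ℚ ≃ₐ[ℚ] AlgebraicClosure ℚ)

section GenMod

variable (A : ValuationSubring K) {M ι : Type} (h : ι → M → K)

/-- The `A`-module underlying `genRing A h`. -/
noncomputable def genMod : Submodule ↥A (M → K) :=
  Subalgebra.toSubmodule (Algebra.adjoin ↥A (Set.range h))

lemma adjoin_toSubring_eq :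
    (Algebra.adjoin ↥A (Set.range h)).toSubring = genRing A.toSubring h := by
  rw [Algebra.adjoin_eq_ring_closure]
  unfold genRing
  congr 1
  congr 1
  ext g
  constructor
  · rintro ⟨a, rfl⟩
    exact ⟨a, a.2, rfl⟩
  · rintro ⟨a, ha, rfl⟩
    exact ⟨⟨a, ha⟩, rfl⟩

lemma mem_genMod_iff (f : M → K) : f ∈ genMod A h ↔ f ∈ genRing A.toSubring h := by
  rw [← adjoin_toSubring_eq]
  rfl

lemma genMod_eq_span :
    genMod A h = Submodule.span ↥A (Submonoid.closure (Set.range h) : Set (M → K)) :=
  Algebra.adjoin_eq_span ↥A (Set.range h)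

lemma smul_fun_apply (a : ↥A) (g : M → K) (m : M) : (a • g) m = (a : K) * g m := rfl

variable [Finite M] [Finite ι]

lemma isIntegral_gen (integral : ∀ j x, h j x ∈ A) (j : ι) : IsIntegral ↥A (h j) := by
  let h' : M → ↥A := fun x => ⟨h j x, integral j x⟩
  have h1 : IsIntegral ↥A h' := Algebra.IsIntegral.isIntegral h'
  have h2 := h1.map ((Algebra.ofId ↥A K).compLeft M)
  have h3 : ((Algebra.ofId ↥A K).compLeft M) h' = h j := by
    funext x
    rfl
  rw [h3] at h2
  exact h2

lemma genMod_fg (integral : ∀ j x, h j x ∈ A) : (genMod A h).FG :=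
  fg_adjoin_of_finite (Set.finite_range h) (by
    rintro _ ⟨j, rfl⟩
    exact isIntegral_gen A h integral j)

end GenMod

section Sup

variable (A : ValuationSubring K) (L : IntermediateField ℚ K)

lemma finiteIndex_fixingSubgroup [FiniteDimensional ℚ L] [hn : Normal ℚ L] :
    L.fixingSubgroup.FiniteIndex := by
  have h1 := @IntermediateField.restrictNormalHom_ker ℚ K _ _ _ L hn
  rw [← h1]
  exact Subgroup.finiteIndex_ker _

lemma finiteIndex_sup [FiniteDimensional ℚ L] [hn : Normal ℚ L] :
    (A.inertiaSubgroupIn ℚ ⊔ L.fixingSubgroup).FiniteIndex := by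
  haveI := @finiteIndex_fixingSubgroup L _ hn
  exact Subgroup.finiteIndex_of_le (le_sup_right : L.fixingSubgroup ≤ _)

variable {M ι : Type} (act : GQ → M → M) (h : ι → M → K)
variable (act_one : ∀ x, act 1 x = x) (act_mul : ∀ σ τ x, act (σ * τ) x = act σ (act τ x))

include act_one act_mul in
/-- The generators are fixed by `I ⊔ Gal(ℚ̄/L)`. -/
lemma sup_le_fixer
    (equivariant : ∀ j, ∀ σ ∈ A.inertiaSubgroupIn ℚ, ∀ x, h j (act σ x) = σ (h j x))
    (hLact : ∀ σ ∈ L.fixingSubgroup, ∀ x, act σ x = x) (hLval : ∀ j x, h j x ∈ L) :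
    A.inertiaSubgroupIn ℚ ⊔ L.fixingSubgroup ≤ fixer act act_one act_mul h := by
  apply sup_le
  · intro σ hσ j
    exact (twist_eq_iff act act_one act_mul σ (h j)).mpr (equivariant j σ hσ)
  · intro σ hσ j
    apply (twist_eq_iff act act_one act_mul σ (h j)).mpr
    intro x
    rw [hLact σ hσ x]
    exact ((IntermediateField.mem_fixingSubgroup_iff L σ).mp hσ (h j x) (hLval j x)).symm

include act_one act_mul in
/-- Monomials are fixed by `I ⊔ Gal(ℚ̄/L)`. -/
lemma twist_monomial_of_sup
    (equivariant : ∀ j, ∀ σ ∈ A.inertiaSubgroupIn ℚ, ∀ x, h j (act σ x) = σ (h j x))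
    (hLact : ∀ σ ∈ L.fixingSubgroup, ∀ x, act σ x = x) (hLval : ∀ j x, h j x ∈ L)
    {f : M → K} (hf : f ∈ Submonoid.closure (Set.range h))
    (η : GQ) (hη : η ∈ A.inertiaSubgroupIn ℚ ⊔ L.fixingSubgroup) : twist act η f = f :=
  twist_monomial_eq act h η
    (sup_le_fixer A L act h act_one act_mul equivariant hLact hLval hη) hf

end Sup

end Fermat.Agent.Lib.HopfOrderLoc
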