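import Fermat.Agent.Lib.HopfOrderLoc.Defs
import Fermat.Agent.Lib.InertiaBridge

/-!
# LocalGen leaves (F1) and (F2): ramification theory for `H = I ⊔ Gal(ℚ̄/L)` (item 71 / S19)

Let `A` be a valuation subring of `ℚ̄` over `ℓ`, `I` its inertia group, `D` its decomposition
group, `L` a number field and `H = I ⊔ Gal(ℚ̄/L)`, an open (hence closed) subgroup of `G_ℚ`
with fixed field `F`.  With `Q = primeUnder A`:

* `stmt_F1` : if the coset `γ H` does not meet `D`, the primes `Q` and `γ⁻¹ Q` differ on the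
  integers of `F` (transitivity of `Gal(ℚ̄/F)` on the primes above a prime of `F`);
* `stmt_F2` : an element of `D` which is congruent to the identity on the integers of `F` lies
  in `H` (surjectivity of `Gal(ℚ̄/F) ∩ D` onto the automorphisms of the residue field over the
  residue field of `F`).  Normality of `L` is not used.
-/

set_option autoImplicit false

open scoped Pointwise

noncomputable section

namespace Fermat.Agent.Lib.HopfOrderLoc.H99

open Fermat.Agent.Lib.FrobExists Fermat.Agent.Lib.InertiaLift Fermat.Agent.Lib.InertiaBridge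

local notation "Qb" => AlgebraicClosure ℚ
local notation "B" => integralClosure ℤ (AlgebraicClosure ℚ)

attribute [local instance] qbar_isAlgebraic' qbar_isAlgClosure' qbar_isGalois'
  intF_smulCommClass intF_isInvariant intF_continuousSMul
  Fermat.Agent.Lib.FrobIntegers.zbarTopologicalSpace
  Fermat.Agent.Lib.FrobIntegers.zbar_discreteTopology

/-- A subgroup containing the fixing subgroup of a number field is closed. -/
theorem isClosed_of_fixingSubgroup_le (L : IntermediateField ℚ Qb) [FiniteDimensional ℚ L]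
    (H : Subgroup (Qb ≃ₐ[ℚ] Qb)) (hLH : L.fixingSubgroup ≤ H) :
    IsClosed (H : Set (Qb ≃ₐ[ℚ] Qb)) := by
  have hopen : IsOpen (H : Set (Qb ≃ₐ[ℚ] Qb)) :=
    Subgroup.isOpen_mono hLH (IntermediateField.fixingSubgroup_isOpen L)
  exact OpenSubgroup.isClosed ⟨H, hopen⟩

/-- Galois correspondence for a subgroup containing the fixing subgroup of a number field. -/
theorem fixingSubgroup_fixedField_of_le (L : IntermediateField ℚ Qb) [FiniteDimensional ℚ L]
    (H : Subgroup (Qb ≃ₐ[ℚ] Qb)) (hLH : L.fixingSubgroup ≤ H) :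
    (IntermediateField.fixedField H).fixingSubgroup = H :=
  InfiniteGalois.fixingSubgroup_fixedField
    (⟨H, isClosed_of_fixingSubgroup_le L H hLH⟩ : ClosedSubgroup (Qb ≃ₐ[ℚ] Qb))

/-- Elements of `Gal(ℚ̄/F)`, `F` the fixed field of `H`, lie in `H`. -/
theorem toGal_mem (L : IntermediateField ℚ Qb) [FiniteDimensional ℚ L]
    (H : Subgroup (Qb ≃ₐ[ℚ] Qb)) (hLH : L.fixingSubgroup ≤ H)
    (k : Qb ≃ₐ[IntermediateField.fixedField H] Qb) :
    toGal (IntermediateField.fixedField H) k ∈ H := by
  have h1 : toGal (IntermediateField.fixedField H) k ∈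
      (IntermediateField.fixedField H).fixingSubgroup := by
    rw [IntermediateField.mem_fixingSubgroup_iff]
    intro x hx
    exact k.commutes ⟨x, hx⟩
  exact (fixingSubgroup_fixedField_of_le L H hLH).le h1

/-- The prime under `A` contains `ℓ`. -/
theorem natCast_mem_primeUnder (ℓ : ℕ) (A : ValuationSubring Qb) (hA : A.LiesOverPrime ℓ) :
    ((ℓ : ℕ) : B) ∈ primeUnder A := by
  rw [mem_primeUnder]
  have hA' : (ℓ : Qb) ∈ A.nonunits := hA
  have h := A.mem_nonunits_iff.mp hA'
  simpa using h

/-- **(F1).** -/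
theorem stmt_F1 : Stmt_F1 := by
  intro ℓ hℓ A hA L hL γ hγ
  have : FiniteDimensional ℚ L := hL
  set H : Subgroup (Qb ≃ₐ[ℚ] Qb) := A.inertiaSubgroupIn ℚ ⊔ L.fixingSubgroup with hH
  have hLH : L.fixingSubgroup ≤ H := le_sup_right
  set F : IntermediateField ℚ Qb := IntermediateField.fixedField H with hF
  by_contra hcon
  push Not at hcon
  have hQprime : (primeUnder A).IsPrime := primeUnder_isPrime A
  have hQmax : (primeUnder A).IsMaximal :=
    Fermat.Agent.Lib.FrobIntegers.zbar_isMaximal ℓ hℓ (primeUnder A)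
      (natCast_mem_primeUnder ℓ A hA)
  have hprime' : (γ⁻¹ • primeUnder A).IsPrime := by
    rw [Ideal.pointwise_smul_eq_comap]
    exact Ideal.comap_isPrime _ _
  have hint : Algebra.IsIntegral (intF F) B :=
    Algebra.IsInvariant.isIntegral_of_profinite (G := Qb ≃ₐ[F] Qb)
  -- the contraction of `γ⁻¹ Q` is contained in the contraction of `Q`
  have hle : (γ⁻¹ • primeUnder A).under (intF F) ≤ (primeUnder A).under (intF F) := by
    intro a ha
    rw [Ideal.under_def, Ideal.mem_comap] at ha ⊢
    rw [Ideal.mem_pointwise_smul_iff_inv_smul_mem, inv_inv, mem_primeUnder] at ha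
    rw [mem_primeUnder]
    have hcoe : ((γ • (algebraMap (intF F) B a) : B) : Qb) = γ ((a : B) : Qb) := rfl
    have hcoe2 : ((algebraMap (intF F) B a : B) : Qb) = ((a : B) : Qb) := rfl
    rw [hcoe] at ha
    rw [hcoe2]
    have hfix : ∀ h ∈ H, h ((a : B) : Qb) = ((a : B) : Qb) := by
      intro h hh
      have hmem : ((a : B) : Qb) ∈ IntermediateField.fixedField H := a.2
      rw [IntermediateField.mem_fixedField_iff] at hmem
      exact hmem h hh
    have hne := hcon ((a : B) : Qb) (a : B).2 hfix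
    have hle1 : A.valuation ((a : B) : Qb) ≤ 1 := valuation_le_one_of_isIntegral A _ (a : B).2
    rcases lt_or_eq_of_le hle1 with hlt | heq
    · exact hlt
    · exact absurd ha (not_lt.mpr (hne heq))
  have hmax1 : ((γ⁻¹ • primeUnder A).under (intF F)).IsMaximal := by
    have hmax' : (γ⁻¹ • primeUnder A).IsMaximal := by
      rw [Ideal.pointwise_smul_eq_comap]
      exact Ideal.comap_isMaximal_of_equiv _
    exact Ideal.isMaximal_comap_of_isIntegral_of_isMaximal (R := intF F) (γ⁻¹ • primeUnder A)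
  have hne2 : (primeUnder A).under (intF F) ≠ ⊤ := (Ideal.IsPrime.under (intF F) _).ne_top
  have hunder : (γ⁻¹ • primeUnder A).under (intF F) = (primeUnder A).under (intF F) :=
    hmax1.eq_of_le hne2 hle
  obtain ⟨g, hg⟩ := Algebra.IsInvariant.exists_smul_of_under_eq_of_profinite
    (A := intF F) (G := Qb ≃ₐ[F] Qb) (γ⁻¹ • primeUnder A) (primeUnder A) hunder
  -- `toGal g * γ⁻¹` stabilises `Q`
  have hstab : (toGal F g * γ⁻¹) • primeUnder A = primeUnder A := by
    rw [mul_smul, toGal_smul_ideal, ← hg]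
  have hdec : toGal F g * γ⁻¹ ∈ A.decompositionSubgroup ℚ :=
    (mem_decompositionSubgroup_iff ℓ hℓ A hA _).mpr hstab
  have hdec' : γ * (toGal F g)⁻¹ ∈ A.decompositionSubgroup ℚ := by
    have := inv_mem hdec
    rwa [mul_inv_rev, inv_inv] at this
  exact hγ _ (inv_mem (toGal_mem L H hLH g)) hdec'

/-- **(F2).** -/
theorem stmt_F2 : Stmt_F2 := by
  intro ℓ hℓ A hA L hL _ σ hσ hcong
  have : FiniteDimensional ℚ L := hL
  set H : Subgroup (Qb ≃ₐ[ℚ] Qb) := A.inertiaSubgroupIn ℚ ⊔ L.fixingSubgroup with hH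
  have hLH : L.fixingSubgroup ≤ H := le_sup_right
  have hIH : A.inertiaSubgroupIn ℚ ≤ H := le_sup_left
  set F : IntermediateField ℚ Qb := IntermediateField.fixedField H with hF
  have hQprime : (primeUnder A).IsPrime := primeUnder_isPrime A
  have hσQ : σ • primeUnder A = primeUnder A :=
    (mem_decompositionSubgroup_iff ℓ hℓ A hA σ).mp hσ
  have hcomm : ∀ a : intF F, σ • (a : B) - (a : B) ∈ primeUnder A := by
    intro a
    rw [mem_primeUnder]
    have hcoe : ((σ • (a : B) - (a : B) : B) : Qb) = σ ((a : B) : Qb) - ((a : B) : Qb) := rfl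
    rw [hcoe]
    apply hcong _ (a : B).2
    intro h hh
    have hmem : ((a : B) : Qb) ∈ IntermediateField.fixedField H := a.2
    rw [IntermediateField.mem_fixedField_iff] at hmem
    exact hmem h hh
  obtain ⟨⟨k, hk⟩, hkψ⟩ := Ideal.Quotient.stabilizerHom_surjective_of_profinite
    (G := Qb ≃ₐ[F] Qb) ((primeUnder A).under (intF F)) (primeUnder A)
    (resAut F (primeUnder A) σ hσQ hcomm)
  have hkb : ∀ b : B, A.valuation (k (b : Qb) - σ (b : Qb)) < 1 := by
    intro b
    have h2 := DFunLike.congr_fun hkψ (Ideal.Quotient.mk (primeUnder A) b)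
    rw [Ideal.Quotient.stabilizerHom_apply, resAut_mk, Ideal.Quotient.eq, mem_primeUnder] at h2
    exact h2
  have hkQ : k • primeUnder A = primeUnder A := MulAction.mem_stabilizer_iff.mp hk
  have hin : (toGal F k)⁻¹ * σ ∈ A.inertiaSubgroupIn ℚ := by
    apply mem_inertiaSubgroupIn_of_integers ℓ hℓ A hA
    intro b hb
    rw [ValuationSubring.mem_nonunits_iff]
    have hmem : (k • (⟨b, hb⟩ : B) - σ • (⟨b, hb⟩ : B)) ∈ primeUnder A := by
      rw [mem_primeUnder]
      exact hkb ⟨b, hb⟩
    rw [← hkQ, Ideal.mem_pointwise_smul_iff_inv_smul_mem, mem_primeUnder] at hmem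
    have hcoe : ((k⁻¹ • (k • (⟨b, hb⟩ : B) - σ • (⟨b, hb⟩ : B)) : B) : Qb) =
        k⁻¹ (k b - σ b) := rfl
    rw [hcoe, map_sub] at hmem
    have h1 : k⁻¹ (k b) = b := AlgEquiv.symm_apply_apply k b
    rw [h1, Valuation.map_sub_swap] at hmem
    exact hmem
  have hkH : toGal F k ∈ H := toGal_mem L H hLH k
  have : σ = toGal F k * ((toGal F k)⁻¹ * σ) := by
    rw [mul_inv_cancel_left]
  rw [this]
  exact mul_mem hkH (hIH hin)

end Fermat.Agent.Lib.HopfOrderLoc.H99
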