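import Fermat.Agent.Lib.HopfOrderLoc.GenMod

/-!
# The descent step of the local generator criterion (item 71, helper32)

`key_monomial`: every monomial `f` in the generators lies in
`A • (G_ℚ-fixed elements of genRing) + m_A • genRing`.
`genMod_le_span_fixed`: hence (Nakayama) `genRing` is spanned over `A` by its `G_ℚ`-fixed
elements.
-/

set_option autoImplicit false
set_option linter.style.haveILetI false
set_option linter.unusedSectionVars false
set_option linter.unusedVariables false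

namespace Fermat.Agent.Lib.HopfOrderLoc

open Fermat.Agent.Lib.FrobExists Fermat.Agent.Lib.InertiaBridge

local notation "K" => AlgebraicClosure ℚ
local notation "GQ" => (AlgebraicClosure ℚ ≃ₐ[ℚ] AlgebraicClosure ℚ)

section Rep

variable (H D : Subgroup GQ)

open Classical in
/-- Representatives of the left cosets of `H`, chosen in `D` whenever possible. -/
noncomputable def cosetRep (q : GQ ⧸ H) : GQ :=
  if hq : ∃ δ ∈ D, (δ : GQ ⧸ H) = q then Classical.choose hq else Quotient.out q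

lemma cosetRep_mk (q : GQ ⧸ H) : (cosetRep H D q : GQ ⧸ H) = q := by
  unfold cosetRep
  split_ifs with hq
  · exact (Classical.choose_spec hq).2
  · exact Quotient.out_eq q

lemma cosetRep_mem (q : GQ ⧸ H) (hq : ∃ δ ∈ D, (δ : GQ ⧸ H) = q) : cosetRep H D q ∈ D := by
  unfold cosetRep
  rw [dif_pos hq]
  exact (Classical.choose_spec hq).1

lemma cosetRep_notMem (q : GQ ⧸ H) (hq : ¬ ∃ δ ∈ D, (δ : GQ ⧸ H) = q) (η : GQ) (hη : η ∈ H) :
    cosetRep H D q * η ∉ D := by
  intro hmem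
  apply hq
  refine ⟨cosetRep H D q * η, hmem, ?_⟩
  rw [← cosetRep_mk H D q]
  apply QuotientGroup.eq.mpr
  have : (cosetRep H D q * η)⁻¹ * cosetRep H D (↑(cosetRep H D q)) ∈ H := by
    rw [cosetRep_mk]
    have h1 : (cosetRep H D q * η)⁻¹ * cosetRep H D q = η⁻¹ := by group
    rw [h1]
    exact H.inv_mem hη
  rw [cosetRep_mk] at this ⊢
  exact this

lemma cosetRep_one_mem : cosetRep H D ((1 : GQ) : GQ ⧸ H) ∈ H := by
  have h1 := cosetRep_mk H D ((1 : GQ) : GQ ⧸ H)
  have h2 := QuotientGroup.eq.mp h1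
  have h3 : (cosetRep H D ((1 : GQ) : GQ ⧸ H))⁻¹ ∈ H := by simpa using h2
  simpa using H.inv_mem h3

end Rep

section Key

variable {M ι : Type} [Finite M] [Finite ι]

/-- The `G_ℚ`-fixed elements of `genRing A h`. -/
def fixedGen (A : ValuationSubring K) (act : GQ → M → M) (h : ι → M → K) : Set (M → K) :=
  {f | f ∈ genRing A.toSubring h ∧ ∀ σ, twist act σ f = f}

/-- Functions divisible by `ℓ ^ (N + 1)`, `N` a conductor exponent, lie in `m_A • genMod`. -/
lemma mem_smul_of_val_le (ℓ : ℕ) (hℓ : ℓ.Prime) (A : ValuationSubring K)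
    (hA : A.LiesOverPrime ℓ) (h : ι → M → K) (N : ℕ)
    (hN : ∀ φ : M → K, (∀ x, φ x ∈ A) → (fun x => (ℓ : K) ^ N * φ x) ∈ genRing A.toSubring h)
    (g : M → K) (hg : ∀ m, A.valuation (g m) ≤ A.valuation ((ℓ : K) ^ (N + 1))) :
    g ∈ IsLocalRing.maximalIdeal ↥A • genMod A h := by
  have hℓ0 : (ℓ : K) ≠ 0 := by exact_mod_cast hℓ.ne_zero
  have hℓA : (ℓ : K) ∈ A.nonunits := hA
  have hℓmem : (ℓ : K) ∈ A := (A.valuation_le_one_iff _).mp (le_of_lt (A.mem_nonunits_iff.mp hℓA))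
  have hb : ∀ m, g m / (ℓ : K) ^ (N + 1) ∈ A := by
    intro m
    rw [← A.valuation_le_one_iff, map_div₀,
      div_le_one₀ ((Valuation.pos_iff _).mpr (pow_ne_zero _ hℓ0))]
    exact hg m
  have h1 : (fun x => (ℓ : K) ^ N * (g x / (ℓ : K) ^ (N + 1))) ∈ genMod A h :=
    (mem_genMod_iff A h _).mpr (hN _ hb)
  have h2 : (⟨(ℓ : K), hℓmem⟩ : ↥A) ∈ IsLocalRing.maximalIdeal ↥A := by
    rw [ValuationSubring.valuation_lt_one_iff]
    exact A.mem_nonunits_iff.mp hℓA
  have h3 : g = (⟨(ℓ : K), hℓmem⟩ : ↥A) • (fun x => (ℓ : K) ^ N * (g x / (ℓ : K) ^ (N + 1))) := by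
    funext m
    rw [smul_fun_apply]
    show g m = (ℓ : K) * ((ℓ : K) ^ N * (g m / (ℓ : K) ^ (N + 1)))
    field_simp
    ring
  rw [h3]
  exact Submodule.smul_mem_smul h2 h1

end Key

end Fermat.Agent.Lib.HopfOrderLoc
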