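import Fermat.Agent.Lib.HopfOrderLoc.Key

/-!
# The descent step of the local generator criterion, main argument (item 71, helper32)

`key_monomial`: every monomial `f` in the generators lies in
`A • (G_ℚ-fixed elements of genRing) + m_A • genRing`.
-/

set_option autoImplicit false
set_option linter.style.haveILetI false
set_option linter.unusedSectionVars false
set_option linter.unusedVariables false
set_option maxHeartbeats 1000000

namespace Fermat.Agent.Lib.HopfOrderLoc

open Fermat.Agent.Lib.FrobExists Fermat.Agent.Lib.InertiaBridge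

local notation "K" => AlgebraicClosure ℚ
local notation "GQ" => (AlgebraicClosure ℚ ≃ₐ[ℚ] AlgebraicClosure ℚ)

variable {M ι : Type} [Finite M] [Finite ι]

theorem key_monomial (hF1 : Stmt_F1) (hF2 : Stmt_F2) (ℓ : ℕ) (hℓ : ℓ.Prime)
    (A : ValuationSubring K) (hA : A.LiesOverPrime ℓ)
    (act : GQ → M → M) (h : ι → M → K)
    (act_one : ∀ x, act 1 x = x) (act_mul : ∀ σ τ x, act (σ * τ) x = act σ (act τ x))
    (integral : ∀ j x, h j x ∈ A)
    (equivariant : ∀ j, ∀ σ ∈ A.inertiaSubgroupIn ℚ, ∀ x, h j (act σ x) = σ (h j x))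
    (stable : ∀ j, ∀ σ ∈ A.decompositionSubgroup ℚ, twist act σ (h j) ∈ genRing A.toSubring h)
    (separates : ∀ x y, x ≠ y → ∃ j, h j x ≠ h j y)
    (L : IntermediateField ℚ K) (hLfin : FiniteDimensional ℚ L) (hLnorm : Normal ℚ L)
    (hLact : ∀ σ ∈ L.fixingSubgroup, ∀ x, act σ x = x) (hLval : ∀ j x, h j x ∈ L)
    {f : M → K} (hf : f ∈ Submonoid.closure (Set.range h)) :
    f ∈ Submodule.span ↥A (fixedGen A act h) ⊔ IsLocalRing.maximalIdeal ↥A • genMod A h := by
  classical
  set H : Subgroup GQ := A.inertiaSubgroupIn ℚ ⊔ L.fixingSubgroup with hH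
  set D : Subgroup GQ := A.decompositionSubgroup ℚ with hD
  haveI : H.FiniteIndex := @finiteIndex_sup A L hLfin hLnorm
  letI : Fintype (GQ ⧸ H) := Subgroup.fintypeQuotientOfFiniteIndex
  letI : Fintype M := Fintype.ofFinite M
  set P := IsLocalRing.maximalIdeal ↥A • genMod A h with hP
  have hPle : P ≤ genMod A h := Submodule.smul_le_right
  have hfH : ∀ η ∈ H, twist act η f = f := fun η hη =>
    twist_monomial_of_sup A L act h act_one act_mul equivariant hLact hLval hf η hη
  have hfgen : f ∈ genMod A h := (mem_genMod_iff A h f).mpr (monomial_mem_genRing _ h hf)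
  obtain ⟨N, hN⟩ := genRing_conductor ℓ hℓ A hA h integral separates
  set rep := cosetRep H D with hrepdef
  have hrep : ∀ q, (rep q : GQ ⧸ H) = q := cosetRep_mk H D
  -- stability of `genMod` under the representatives in `D`
  have hstab : ∀ q, (∃ δ ∈ D, (δ : GQ ⧸ H) = q) → ∀ g ∈ genMod A h,
      twist act (rep q) g ∈ genMod A h := by
    intro q hq g hg
    rw [mem_genMod_iff] at hg ⊢
    exact twist_mem_genRing act A h (rep q) (cosetRep_mem H D q hq)
      (fun j => stable j _ (cosetRep_mem H D q hq)) hg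
  -- the approximating element
  obtain ⟨e, heH, he1, heJ⟩ := exists_approx hF1 ℓ hℓ A hA L hLfin
    (J := {q : GQ ⧸ H // ¬ ∃ δ ∈ D, (δ : GQ ⧸ H) = q} × M)
    (fun j => rep j.1.1) (fun j => rep j.1.1 (f (act (rep j.1.1)⁻¹ j.2))) (N + 1)
    (fun j η hη => cosetRep_notMem H D j.1.1 j.1.2 η hη)
  have heA : e ∈ A := (A.valuation_le_one_iff _).mp (le_of_eq he1)
  have he0 : e ≠ 0 := by
    intro h0
    rw [h0, map_zero] at he1
    exact zero_ne_one he1
  have heinv : e⁻¹ ∈ A := by
    rw [← A.valuation_le_one_iff, map_inv₀, he1, inv_one]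
  -- the characters are pairwise distinct
  have hinj : Function.Injective
      (fun a : {q : GQ ⧸ H // ∃ δ ∈ D, (δ : GQ ⧸ H) = q} => resChar A H (rep a.1)) := by
    intro a b hab
    apply Subtype.ext
    have ha := cosetRep_mem H D a.1 a.2
    have hb := cosetRep_mem H D b.1 b.2
    have hσ : (rep a.1)⁻¹ * rep b.1 ∈ D := D.mul_mem (D.inv_mem ha) hb
    have hmem : (rep a.1)⁻¹ * rep b.1 ∈ H := by
      apply hF2 ℓ hℓ A hA L hLfin hLnorm _ hσ
      intro x hxint hxfix
      have h1 := (resChar_eq_iff A H (rep a.1) (rep b.1) ⟨x, hxint, hxfix⟩).mp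
        (DFunLike.congr_fun hab _)
      have h2 := (valuation_map_lt_one_iff A (rep a.1)⁻¹ (D.inv_mem ha)
        (rep a.1 x - rep b.1 x)).mpr h1
      have h3 : (rep a.1)⁻¹ (rep a.1 x - rep b.1 x) = x - ((rep a.1)⁻¹ * rep b.1) x := by
        rw [map_sub]
        congr 1
        exact AlgEquiv.symm_apply_apply _ _
      rw [h3, Valuation.map_sub_swap] at h2
      exact h2
    calc a.1 = ((rep a.1 : GQ) : GQ ⧸ H) := (hrep a.1).symm
      _ = ((rep b.1 : GQ) : GQ ⧸ H) := QuotientGroup.eq.mpr hmem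
      _ = b.1 := hrep b.1
  set q₁ : GQ ⧸ H := ((1 : GQ) : GQ ⧸ H) with hq₁
  have hq₁D : ∃ δ ∈ D, (δ : GQ ⧸ H) = q₁ := ⟨1, D.one_mem, rfl⟩
  obtain ⟨c, hc⟩ := exists_finsupp_resChar A H
    (fun a : {q : GQ ⧸ H // ∃ δ ∈ D, (δ : GQ ⧸ H) = q} => rep a.1) hinj
    (fun a => if a.1 = q₁ then 1 else 0)
  choose c' hc' using fun x : ↥(fixInt H) => IsLocalRing.residue_surjective (c x)
  -- the functions `(e x) f` and their twists
  let Fx : ↥(fixInt H) → (M → K) := fun x m => (e * (x : K)) * f m
  have hFxH : ∀ x, ∀ η ∈ H, twist act η (Fx x) = Fx x := by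
    intro x η hη
    show twist act η (fun m => (e * (x : K)) * f m) = _
    rw [twist_smul_const, hfH η hη, map_mul, heH.2 η hη, x.2.2 η hη]
  have hexA : ∀ x : ↥(fixInt H), e * (x : K) ∈ A := fun x =>
    A.mul_mem _ _ heA (map_mem_of_isIntegral A 1 x x.2.1)
  have hFxgen : ∀ x, Fx x ∈ genMod A h := by
    intro x
    have : Fx x = (⟨e * (x : K), hexA x⟩ : ↥A) • f := by
      funext m
      rfl
    rw [this]
    exact Submodule.smul_mem _ _ hfgen
  let tm : GQ ⧸ H → ↥(fixInt H) → (M → K) := fun q x => twist act (rep q) (Fx x)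
  have htm : ∀ q x m, tm q x m =
      rep q e * rep q (x : K) * twist act (rep q) f m := by
    intro q x m
    show twist act (rep q) (fun m => (e * (x : K)) * f m) m = _
    rw [twist_smul_const, map_mul]
  have hbad : ∀ q, (¬ ∃ δ ∈ D, (δ : GQ ⧸ H) = q) → ∀ x, tm q x ∈ P := by
    intro q hq x
    apply mem_smul_of_val_le ℓ hℓ A hA h N hN
    intro m
    have hval : tm q x m =
        (rep q e * rep q (f (act (rep q)⁻¹ m))) * rep q (x : K) := by
      rw [htm, twist_apply]
      ring
    have h1 : A.valuation (rep q e * rep q (f (act (rep q)⁻¹ m))) ≤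
        A.valuation ((ℓ : K) ^ (N + 1)) := heJ (⟨q, hq⟩, m)
    have h2 : A.valuation (rep q (x : K)) ≤ 1 :=
      valuation_le_one_of_isIntegral A _ (map_isIntegral_int (rep q) x.2.1)
    rw [hval, map_mul]
    calc A.valuation (rep q e * rep q (f (act (rep q)⁻¹ m))) * A.valuation (rep q (x : K))
        ≤ A.valuation ((ℓ : K) ^ (N + 1)) * 1 := mul_le_mul' h1 h2
      _ = _ := mul_one _
  have hgood : ∀ q, (∃ δ ∈ D, (δ : GQ ⧸ H) = q) → ∀ x, tm q x ∈ genMod A h :=
    fun q hq x => hstab q hq _ (hFxgen x)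
  have htmgen : ∀ q x, tm q x ∈ genMod A h := by
    intro q x
    by_cases hq : ∃ δ ∈ D, (δ : GQ ⧸ H) = q
    · exact hgood q hq x
    · exact hPle (hbad q hq x)
  -- the traces
  let T : ↥(fixInt H) → (M → K) := fun x => cosetTrace act H rep (Fx x)
  have hTsum : ∀ x, T x = ∑ q, tm q x := fun x => rfl
  have hTfix : ∀ x, T x ∈ fixedGen A act h := by
    intro x
    refine ⟨?_, fun σ => twist_cosetTrace act act_one act_mul H rep hrep (Fx x) (hFxH x) σ⟩
    rw [← mem_genMod_iff, hTsum]
    exact Submodule.sum_mem _ (fun q _ => htmgen q x)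
  -- the combination
  set S : M → K := ∑ x ∈ c.support, c' x • T x with hS
  have hSmem : S ∈ Submodule.span ↥A (fixedGen A act h) :=
    Submodule.sum_mem _ (fun x _ => Submodule.smul_mem _ _ (Submodule.subset_span (hTfix x)))
  let eA : ↥A := ⟨e, heA⟩
  let eAinv : ↥A := ⟨e⁻¹, heinv⟩
  -- the coefficients
  let u : GQ ⧸ H → ↥A := fun q => ∑ x ∈ c.support, c' x * conjHom A H (rep q) x
  have hures : ∀ q, (∃ δ ∈ D, (δ : GQ ⧸ H) = q) →
      IsLocalRing.residue ↥A (u q) = if q = q₁ then 1 else 0 := by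
    intro q hq
    have h1 := hc ⟨q, hq⟩
    simp only at h1
    rw [← h1, Finsupp.sum]
    show IsLocalRing.residue ↥A (∑ x ∈ c.support, c' x * conjHom A H (rep q) x) = _
    rw [map_sum]
    apply Finset.sum_congr rfl
    intro x _
    rw [map_mul, hc' x]
    rfl
  have hsumq : ∀ q, (∑ x ∈ c.support, c' x • tm q x) =
      (conjHom A H (rep q) ⟨e, heH⟩ * u q) • twist act (rep q) f := by
    intro q
    funext m
    rw [Finset.sum_apply, smul_fun_apply]
    show ∑ x ∈ c.support, (c' x • tm q x) m =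
      ((conjHom A H (rep q) ⟨e, heH⟩ * u q : ↥A) : K) * twist act (rep q) f m
    have h1 : ((conjHom A H (rep q) ⟨e, heH⟩ * u q : ↥A) : K) =
        rep q e * ∑ x ∈ c.support, (c' x : K) * rep q (x : K) := by
      show ((conjHom A H (rep q) ⟨e, heH⟩ : ↥A) : K) * ((u q : ↥A) : K) = _
      congr 1
      show ((∑ x ∈ c.support, c' x * conjHom A H (rep q) x : ↥A) : K) = _
      rw [← ValuationSubring.coe_subtype, map_sum]
      rfl
    rw [h1, Finset.mul_sum, Finset.sum_mul]
    apply Finset.sum_congr rfl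
    intro x _
    rw [smul_fun_apply, htm]
    ring
  -- each coset contributes an element of `P`
  have hZ : ∀ q, (∑ x ∈ c.support, c' x • tm q x) - (if q = q₁ then eA • f else 0) ∈ P := by
    intro q
    by_cases hq : ∃ δ ∈ D, (δ : GQ ⧸ H) = q
    · rw [hsumq q]
      have hFq : twist act (rep q) f ∈ genMod A h := hstab q hq f hfgen
      by_cases hqq : q = q₁
      · rw [if_pos hqq]
        have hrepH : rep q ∈ H := by
          rw [hqq]
          exact cosetRep_one_mem H D
        have h1 : twist act (rep q) f = f := hfH _ hrepH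
        have h2 : conjHom A H (rep q) ⟨e, heH⟩ = eA := by
          apply Subtype.ext
          show rep q e = e
          exact heH.2 _ hrepH
        rw [h1, h2, ← sub_smul]
        have h3 : eA * u q - eA = eA * (u q - 1) := by ring
        rw [h3]
        apply Submodule.smul_mem_smul _ hfgen
        apply Ideal.mul_mem_left
        rw [← IsLocalRing.residue_eq_zero_iff, map_sub, hures q hq, if_pos hqq, map_one, sub_self]
      · rw [if_neg hqq, sub_zero]
        apply Submodule.smul_mem_smul _ hFq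
        apply Ideal.mul_mem_left
        rw [← IsLocalRing.residue_eq_zero_iff, hures q hq, if_neg hqq]
    · have hqq : q ≠ q₁ := fun hqq => hq (hqq ▸ hq₁D)
      rw [if_neg hqq, sub_zero]
      exact Submodule.sum_mem _ (fun x _ => Submodule.smul_mem _ _ (hbad q hq x))
  have hdiff : S - eA • f ∈ P := by
    have h1 : S - eA • f =
        ∑ q, ((∑ x ∈ c.support, c' x • tm q x) - (if q = q₁ then eA • f else 0)) := by
      rw [Finset.sum_sub_distrib, Finset.sum_ite_eq' Finset.univ q₁, if_pos (Finset.mem_univ _),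
        Finset.sum_comm, hS]
      congr 1
      apply Finset.sum_congr rfl
      intro x _
      rw [hTsum, Finset.smul_sum]
    rw [h1]
    exact Submodule.sum_mem _ (fun q _ => hZ q)
  -- conclusion
  have hunit : eAinv * eA = 1 := by
    apply Subtype.ext
    show e⁻¹ * e = 1
    exact inv_mul_cancel₀ he0
  have hfeq : f = eAinv • S + -(eAinv • (S - eA • f)) := by
    rw [smul_sub, smul_smul, hunit, one_smul]
    abel
  rw [hfeq]
  exact Submodule.add_mem _
    (Submodule.mem_sup_left (Submodule.smul_mem _ _ hSmem))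
    (Submodule.mem_sup_right (Submodule.neg_mem _ (Submodule.smul_mem _ _ hdiff)))

end Fermat.Agent.Lib.HopfOrderLoc
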