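import Fermat.Agent.Lib.HopfOrderLoc.Main
import Fermat.Agent.Lib.HopfOrderLoc.H99_F1

/-!
# The local generator criterion, unconditional (item 71 / S19)

`stmt_LocalGen : Stmt_LocalGen`, and the ready-to-use form `flat_of_local_generators`.

Input: a finite abelian group `M` with an action of `G_ℚ` through a finite quotient, one
valuation subring `A` of `ℚ̄` over `ℓ` (inertia group `I`, decomposition group `D`), finitely
many functions `h j : M → ℚ̄` with values in `A`, `I`-equivariant, separating the points of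
`M`, such that `twist act σ (h j) ∈ genRing A h` for `σ ∈ D` and
`(x, y) ↦ h j (x + y) ∈ pairRing A h`.
Output: the condition of the prelude (`GaloisRepAdic.IsFlatAt`, frozen S19) for `M`.

To check the last two hypotheses one may use division by functions with unit values
(`Fermat.Agent.Lib.HopfOrder.div_mem_pairRing`, `mem_pairRing_of_local`) and `ℓ`-adic
approximation (`genRing_closed`, `pairRing_closed` in `CL.lean`).
-/

set_option autoImplicit false

namespace Fermat.Agent.Lib.HopfOrderLoc

open Fermat.Agent.Lib.HopfOrder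

/-- **The local generator criterion.** -/
theorem stmt_LocalGen : Stmt_LocalGen := localGen_of H99.stmt_F1 H99.stmt_F2

/-- The local generator criterion, ready to use. -/
theorem flat_of_local_generators {ι : Type} [Finite ι] (ℓ : ℕ) (hℓ : ℓ.Prime)
    {M : Type} [AddCommGroup M] [Finite M]
    (A : ValuationSubring (AlgebraicClosure ℚ)) (hA : A.LiesOverPrime ℓ)
    (act : (AlgebraicClosure ℚ ≃ₐ[ℚ] AlgebraicClosure ℚ) → M → M)
    (h : ι → M → AlgebraicClosure ℚ)
    (act_one : ∀ x, act 1 x = x) (act_mul : ∀ σ τ x, act (σ * τ) x = act σ (act τ x))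
    (act_add : ∀ σ x y, act σ (x + y) = act σ x + act σ y)
    (act_cont : ∃ L : IntermediateField ℚ (AlgebraicClosure ℚ), FiniteDimensional ℚ L ∧
      ∀ σ ∈ L.fixingSubgroup, ∀ x, act σ x = x)
    (integral : ∀ j x, h j x ∈ A)
    (equivariant : ∀ j, ∀ σ ∈ A.inertiaSubgroupIn ℚ, ∀ x, h j (act σ x) = σ (h j x))
    (stable : ∀ j, ∀ σ ∈ A.decompositionSubgroup ℚ,
      twist act σ (h j) ∈ genRing A.toSubring h)
    (separates : ∀ x y, x ≠ y → ∃ j, h j x ≠ h j y)
    (comul : ∀ j, (fun q : M × M => h j (q.1 + q.2)) ∈ pairRing A.toSubring h) :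
    ∃ (H' : Type) (_ : CommRing H') (_ : HopfAlgebra (GaloisRep.ratLocalizedAt ℓ) H'),
      Module.Finite (GaloisRep.ratLocalizedAt ℓ) H' ∧
      Module.Flat (GaloisRep.ratLocalizedAt ℓ) H' ∧
      Coalgebra.IsCocomm (GaloisRep.ratLocalizedAt ℓ) H' ∧
      ∃ e : WithConv (H' →ₐ[GaloisRep.ratLocalizedAt ℓ] AlgebraicClosure ℚ) ≃ M,
        (∀ f g : WithConv (H' →ₐ[GaloisRep.ratLocalizedAt ℓ] AlgebraicClosure ℚ),
          e (f * g) = e f + e g) ∧
        ∀ (σ : AlgebraicClosure ℚ ≃ₐ[ℚ] AlgebraicClosure ℚ)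
          (f g : WithConv (H' →ₐ[GaloisRep.ratLocalizedAt ℓ] AlgebraicClosure ℚ)),
          (∀ h : H', g h = σ (f h)) → e g = act σ (e f) :=
  stmt_LocalGen ι ℓ hℓ M A hA act h act_one act_mul act_add act_cont integral equivariant
    stable separates comul

end Fermat.Agent.Lib.HopfOrderLoc
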