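import Fermat.Agent.Lib.HopfOrderLoc.Key2

/-!
# The local generator criterion (item 71 / S19, helper32)

`localGen_of : Stmt_F1 → Stmt_F2 → Stmt_LocalGen`.

Steps: `genMod_le_span_fixed` (Nakayama on `key_monomial`): `genRing A h` is spanned over `A`
by its `G_ℚ`-fixed elements; finitely many of them, `F_1, …, F_r`, span; they are equivariant,
`A`-valued, separate points, and `pairRing A F = pairRing A h`; apply
`Fermat.Agent.Lib.HopfOrder.flat_of_generators` to `F`.
-/

set_option autoImplicit false
set_option linter.style.haveILetI false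
set_option linter.unusedSectionVars false
set_option linter.unusedVariables false

namespace Fermat.Agent.Lib.HopfOrderLoc

open Fermat.Agent.Lib.FrobExists Fermat.Agent.Lib.InertiaBridge Fermat.Agent.Lib.HopfOrder
open Fermat.Agent.Lib.InertiaLift

attribute [local instance] qbar_isAlgebraic' qbar_isAlgClosure' qbar_isGalois'

local notation "K" => AlgebraicClosure ℚ
local notation "GQ" => (AlgebraicClosure ℚ ≃ₐ[ℚ] AlgebraicClosure ℚ)

section Nakayama

variable {M ι : Type} [Finite M] [Finite ι]

/-- `genRing A h` is spanned over `A` by its `G_ℚ`-fixed elements. -/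
theorem genMod_le_span_fixed (hF1 : Stmt_F1) (hF2 : Stmt_F2) (ℓ : ℕ) (hℓ : ℓ.Prime)
    (A : ValuationSubring K) (hA : A.LiesOverPrime ℓ)
    (act : GQ → M → M) (h : ι → M → K)
    (act_one : ∀ x, act 1 x = x) (act_mul : ∀ σ τ x, act (σ * τ) x = act σ (act τ x))
    (integral : ∀ j x, h j x ∈ A)
    (equivariant : ∀ j, ∀ σ ∈ A.inertiaSubgroupIn ℚ, ∀ x, h j (act σ x) = σ (h j x))
    (stable : ∀ j, ∀ σ ∈ A.decompositionSubgroup ℚ, twist act σ (h j) ∈ genRing A.toSubring h)
    (separates : ∀ x y, x ≠ y → ∃ j, h j x ≠ h j y)
    (L : IntermediateField ℚ K) (hLfin : FiniteDimensional ℚ L) (hLnorm : Normal ℚ L)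
    (hLact : ∀ σ ∈ L.fixingSubgroup, ∀ x, act σ x = x) (hLval : ∀ j x, h j x ∈ L) :
    genMod A h ≤ Submodule.span ↥A (fixedGen A act h) := by
  apply Submodule.le_of_le_smul_of_le_jacobson_bot (I := IsLocalRing.maximalIdeal ↥A)
    (genMod_fg A h integral)
  · rw [IsLocalRing.jacobson_eq_maximalIdeal ⊥ bot_ne_top]
  · conv_lhs => rw [genMod_eq_span]
    rw [Submodule.span_le]
    intro f hf
    exact key_monomial hF1 hF2 ℓ hℓ A hA act h act_one act_mul integral equivariant stable
      separates L hLfin hLnorm hLact hLval hf

end Nakayama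

section Pair

variable {M ι κ : Type} [AddCommGroup M] [Finite M]

/-- Composition with the addition maps `genRing` into `pairRing`. -/
lemma comp_add_mem_pairRing (A : Subring K) (h : ι → M → K)
    (comul : ∀ j, (fun q : M × M => h j (q.1 + q.2)) ∈ pairRing A h)
    {g : M → K} (hg : g ∈ genRing A h) : (fun q : M × M => g (q.1 + q.2)) ∈ pairRing A h := by
  induction hg using Subring.closure_induction with
  | mem g hg =>
    rcases hg with ⟨a, ha, rfl⟩ | ⟨j, rfl⟩
    · exact const_mem_pairRing A h ha
    · exact comul j
  | zero => exact Subring.zero_mem _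
  | one => exact Subring.one_mem _
  | add g g' _ _ hg hg' => exact Subring.add_mem _ hg hg'
  | neg g _ hg => exact Subring.neg_mem _ hg
  | mul g g' _ _ hg hg' => exact Subring.mul_mem _ hg hg'

/-- If the `h j` lie in the `A`-span of the `F i`, then `pairRing A h ≤ pairRing A F`. -/
lemma pairRing_le_of_span (A : ValuationSubring K) (h : ι → M → K) (F : κ → M → K)
    (hspan : ∀ j, h j ∈ Submodule.span ↥A (Set.range F)) :
    pairRing A.toSubring h ≤ pairRing A.toSubring F := by
  -- the submodules of functions whose pull-backs lie in `pairRing A F`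
  let N₁ : Submodule ↥A (M → K) :=
    { carrier := {g | (fun p : M × M => g p.1) ∈ pairRing A.toSubring F}
      add_mem' := fun {a b} ha hb =>
        (pairRing A.toSubring F).add_mem (x := fun p : M × M => a p.1)
          (y := fun p : M × M => b p.1) ha hb
      zero_mem' := (pairRing A.toSubring F).zero_mem
      smul_mem' := fun c g hg =>
        (pairRing A.toSubring F).mul_mem (x := fun _ : M × M => (c : K))
          (y := fun p : M × M => g p.1) (const_mem_pairRing A.toSubring F c.2) hg }
  let N₂ : Submodule ↥A (M → K) :=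
    { carrier := {g | (fun p : M × M => g p.2) ∈ pairRing A.toSubring F}
      add_mem' := fun {a b} ha hb =>
        (pairRing A.toSubring F).add_mem (x := fun p : M × M => a p.2)
          (y := fun p : M × M => b p.2) ha hb
      zero_mem' := (pairRing A.toSubring F).zero_mem
      smul_mem' := fun c g hg =>
        (pairRing A.toSubring F).mul_mem (x := fun _ : M × M => (c : K))
          (y := fun p : M × M => g p.2) (const_mem_pairRing A.toSubring F c.2) hg }
  have h1 : Submodule.span ↥A (Set.range F) ≤ N₁ := by
    rw [Submodule.span_le]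
    rintro _ ⟨i, rfl⟩
    exact fst_mem_pairRing A.toSubring F i
  have h2 : Submodule.span ↥A (Set.range F) ≤ N₂ := by
    rw [Submodule.span_le]
    rintro _ ⟨i, rfl⟩
    exact snd_mem_pairRing A.toSubring F i
  unfold pairRing
  rw [Subring.closure_le]
  rintro g (⟨a, ha, rfl⟩ | ⟨j, rfl⟩ | ⟨j, rfl⟩)
  · exact const_mem_pairRing A.toSubring F ha
  · exact h1 (hspan j)
  · exact h2 (hspan j)

end Pair

/-- **The local generator criterion**, from the two facts of ramification theory. -/
theorem localGen_of (hF1 : Stmt_F1) (hF2 : Stmt_F2) : Stmt_LocalGen := by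
  intro ι _ ℓ hℓ M _ _ A hA act h act_one act_mul act_add hcont integral equivariant stable
    separates comul
  classical
  obtain ⟨L₀, hL₀fin, hL₀⟩ := hcont
  -- the number field `L`
  let S : Set K := Set.range (fun p : ι × M => h p.1 p.2)
  haveI : Finite ↑S := Set.finite_range _
  haveI : FiniteDimensional ℚ ↥(IntermediateField.adjoin ℚ S) :=
    IntermediateField.finiteDimensional_adjoin (fun x _ => Algebra.IsIntegral.isIntegral x)
  let L₁ : IntermediateField ℚ K := L₀ ⊔ IntermediateField.adjoin ℚ S
  haveI : FiniteDimensional ℚ ↥L₁ := IntermediateField.finiteDimensional_sup _ _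
  let L : IntermediateField ℚ K := IntermediateField.normalClosure ℚ ↥L₁ K
  have hLfin : FiniteDimensional ℚ ↥L := normalClosure.is_finiteDimensional ℚ ↥L₁ K
  have hLnorm : Normal ℚ ↥L := by
    haveI : Normal ℚ K := IsGalois.to_normal
    exact normalClosure.normal ℚ ↥L₁ K
  have hL₁L : L₁ ≤ L := IntermediateField.le_normalClosure L₁
  have hLact : ∀ σ ∈ L.fixingSubgroup, ∀ x, act σ x = x := fun σ hσ x =>
    hL₀ σ (IntermediateField.fixingSubgroup_le (le_trans le_sup_left hL₁L) hσ) x
  have hLval : ∀ j x, h j x ∈ L := fun j x =>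
    hL₁L ((le_sup_right : IntermediateField.adjoin ℚ S ≤ L₁)
      (IntermediateField.subset_adjoin ℚ S ⟨(j, x), rfl⟩))
  -- `genRing` is spanned by its fixed elements
  have hle := genMod_le_span_fixed hF1 hF2 ℓ hℓ A hA act h act_one act_mul integral equivariant
    stable separates L hLfin hLnorm hLact hLval
  have hge : Submodule.span ↥A (fixedGen A act h) ≤ genMod A h := by
    rw [Submodule.span_le]
    intro f hf
    exact (mem_genMod_iff A h f).mpr hf.1
  have hspan : Submodule.span ↥A (fixedGen A act h) = genMod A h := le_antisymm hge hle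
  have hfg : (Submodule.span ↥A (fixedGen A act h)).FG := by
    rw [hspan]
    exact genMod_fg A h integral
  obtain ⟨s, hs, hss⟩ := (Submodule.fg_span_iff_fg_span_finset_subset _).mp hfg
  -- the new generators
  let F : ↥s → M → K := fun i => (i : M → K)
  have hFrange : Set.range F = (↑s : Set (M → K)) := by
    ext g
    constructor
    · rintro ⟨i, rfl⟩
      exact i.2
    · intro hg
      exact ⟨⟨g, hg⟩, rfl⟩
  have hFfix : ∀ i : ↥s, F i ∈ fixedGen A act h := fun i => hs i.2
  have hhspan : ∀ j, h j ∈ Submodule.span ↥A (Set.range F) := by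
    intro j
    rw [hFrange, ← hss, hspan, mem_genMod_iff]
    exact gen_mem_genRing A.toSubring h j
  refine flat_of_generators ℓ hℓ A hA act F act_add ?_ ?_ ?_ ?_ ?_
  · -- injectivity of the action
    intro σ x y hxy
    have := congrArg (act σ⁻¹) hxy
    rwa [act_inv_act act act_one act_mul, act_inv_act act act_one act_mul] at this
  · -- equivariance
    intro i σ x
    exact (twist_eq_iff act act_one act_mul σ (F i)).mp ((hFfix i).2 σ) x
  · -- integrality
    intro i x
    exact genRing_val_mem A.toSubring h integral (hFfix i).1 x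
  · -- separation
    intro x y hxy
    by_contra hcon
    simp only [not_exists, not_not] at hcon
    obtain ⟨j, hj⟩ := separates x y hxy
    apply hj
    let N₀ : Submodule ↥A (M → K) :=
      { carrier := {g | g x = g y}
        add_mem' := fun {a b} ha hb => by
          show a x + b x = a y + b y
          rw [ha, hb]
        zero_mem' := rfl
        smul_mem' := fun c g hg => by
          show (c : K) * g x = (c : K) * g y
          rw [hg] }
    have h1 : Submodule.span ↥A (Set.range F) ≤ N₀ := by
      rw [Submodule.span_le]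
      rintro _ ⟨i, rfl⟩
      exact hcon i
    exact h1 (hhspan j)
  · -- comultiplication
    intro i
    exact pairRing_le_of_span A h F hhspan
      (comp_add_mem_pairRing A.toSubring h comul (hFfix i).1)

end Fermat.Agent.Lib.HopfOrderLoc
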