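import Fermat.Agent.Lib.HopfOrderLoc.CL
import Fermat.Agent.Lib.InertiaBridge

/-!
# The semilinear Galois action on functions and the trace over cosets (item 71, helper32)

`twist act σ f = fun x => σ (f (act σ⁻¹ x))`.

* `twistHom` : `twist act σ` as a ring homomorphism; `twist_one`, `twist_mul`.
* `twist_mem_genRing` : `genRing A h` is stable under the decomposition group if the twists of
  the generators lie in it.
* `twist_monomial_eq` : monomials in `I`-equivariant generators with values in `L` are fixed by
  `I ⊔ Gal(ℚ̄/L)`.
* `cosetTrace`, `twist_cosetTrace` : the sum of the twists over the cosets of a subgroup of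
  finite index fixing `F` is fixed by the whole Galois group.
-/

set_option autoImplicit false
set_option linter.style.haveILetI false
set_option linter.unusedSectionVars false

namespace Fermat.Agent.Lib.HopfOrderLoc

open Fermat.Agent.Lib.HopfOrder Fermat.Agent.Lib.InertiaBridge

local notation "K" => AlgebraicClosure ℚ
local notation "GQ" => (AlgebraicClosure ℚ ≃ₐ[ℚ] AlgebraicClosure ℚ)

section Twist

variable {M ι : Type} (act : GQ → M → M)

lemma twist_apply (σ : GQ) (f : M → K) (x : M) : twist act σ f x = σ (f (act σ⁻¹ x)) := rfl

/-- `twist act σ` as a ring homomorphism. -/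
noncomputable def twistHom (σ : GQ) : (M → K) →+* (M → K) where
  toFun f := twist act σ f
  map_one' := by funext x; simp [twist]
  map_mul' f g := by funext x; simp [twist]
  map_zero' := by funext x; simp [twist]
  map_add' f g := by funext x; simp [twist]

lemma twistHom_apply (σ : GQ) (f : M → K) : twistHom act σ f = twist act σ f := rfl

lemma twist_const (σ : GQ) (a : K) : twist act σ (fun _ : M => a) = fun _ => σ a := rfl

lemma twist_smul_const (σ : GQ) (a : K) (f : M → K) :
    twist act σ (fun x => a * f x) = fun x => σ a * twist act σ f x := by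
  funext x
  simp [twist]

lemma twist_sum {κ : Type} (s : Finset κ) (σ : GQ) (F : κ → M → K) :
    twist act σ (∑ k ∈ s, F k) = ∑ k ∈ s, twist act σ (F k) := by
  exact map_sum (twistHom act σ) F s

variable (act_one : ∀ x, act 1 x = x) (act_mul : ∀ σ τ x, act (σ * τ) x = act σ (act τ x))

include act_one in
lemma twist_one (f : M → K) : twist act 1 f = f := by
  funext x
  simp [twist, act_one]

include act_mul in
lemma twist_mul (σ τ : GQ) (f : M → K) :
    twist act (σ * τ) f = twist act σ (twist act τ f) := by
  funext x
  simp only [twist, mul_inv_rev, act_mul]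
  rfl

include act_one act_mul in
lemma act_inv_act (σ : GQ) (x : M) : act σ⁻¹ (act σ x) = x := by
  rw [← act_mul, inv_mul_cancel, act_one]

include act_one act_mul in
lemma act_act_inv (σ : GQ) (x : M) : act σ (act σ⁻¹ x) = x := by
  rw [← act_mul, mul_inv_cancel, act_one]

/-- The subgroup of the Galois group fixing a family of functions under `twist`. -/
def fixer (act_one : ∀ x, act 1 x = x) (act_mul : ∀ σ τ x, act (σ * τ) x = act σ (act τ x))
    (h : ι → M → K) : Subgroup GQ where
  carrier := {σ | ∀ j, twist act σ (h j) = h j}
  one_mem' := fun j => twist_one act act_one (h j)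
  mul_mem' := fun {σ τ} hσ hτ j => by
    rw [twist_mul act act_mul, hτ j, hσ j]
  inv_mem' := fun {σ} hσ j => by
    have h1 : twist act σ⁻¹ (twist act σ (h j)) = h j := by
      rw [← twist_mul act act_mul, inv_mul_cancel, twist_one act act_one]
    rw [hσ j] at h1
    exact h1

lemma mem_fixer (h : ι → M → K) (σ : GQ) :
    σ ∈ fixer act act_one act_mul h ↔ ∀ j, twist act σ (h j) = h j := Iff.rfl

/-- A function is `twist`-fixed by `σ` iff it is `σ`-equivariant. -/
lemma twist_eq_iff (act_one : ∀ x, act 1 x = x)
    (act_mul : ∀ σ τ x, act (σ * τ) x = act σ (act τ x)) (σ : GQ) (f : M → K) :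
    twist act σ f = f ↔ ∀ x, f (act σ x) = σ (f x) := by
  constructor
  · intro h x
    have := congrFun h (act σ x)
    rw [twist_apply, act_inv_act act act_one act_mul] at this
    exact this.symm
  · intro h
    funext x
    rw [twist_apply, ← h, act_act_inv act act_one act_mul]

/-- Monomials in functions fixed by `σ` are fixed by `σ`. -/
lemma twist_monomial_eq (h : ι → M → K) (σ : GQ) (hσ : ∀ j, twist act σ (h j) = h j)
    {f : M → K} (hf : f ∈ Submonoid.closure (Set.range h)) : twist act σ f = f := by
  induction hf using Submonoid.closure_induction with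
  | mem g hg =>
    obtain ⟨j, rfl⟩ := hg
    exact hσ j
  | one => exact map_one (twistHom act σ)
  | mul f g _ _ hf hg =>
    have := map_mul (twistHom act σ) f g
    rw [twistHom_apply, twistHom_apply, twistHom_apply, hf, hg] at this
    exact this

/-- The values of monomials lie in any subfield containing the values of the generators. -/
lemma monomial_val_mem (h : ι → M → K) (L : IntermediateField ℚ K) (hL : ∀ j x, h j x ∈ L)
    {f : M → K} (hf : f ∈ Submonoid.closure (Set.range h)) (x : M) : f x ∈ L := by
  induction hf using Submonoid.closure_induction with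
  | mem g hg =>
    obtain ⟨j, rfl⟩ := hg
    exact hL j x
  | one => exact L.one_mem
  | mul f g _ _ hf hg => exact L.mul_mem hf hg

/-- Monomials lie in `genRing`. -/
lemma monomial_mem_genRing (A : Subring K) (h : ι → M → K)
    {f : M → K} (hf : f ∈ Submonoid.closure (Set.range h)) : f ∈ genRing A h := by
  induction hf using Submonoid.closure_induction with
  | mem g hg =>
    obtain ⟨j, rfl⟩ := hg
    exact gen_mem_genRing A h j
  | one => exact (genRing A h).one_mem
  | mul f g _ _ hf hg => exact (genRing A h).mul_mem hf hg

/-- `genRing A h` is stable under the decomposition group. -/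
lemma twist_mem_genRing (A : ValuationSubring K) (h : ι → M → K) (σ : GQ)
    (hσ : σ ∈ A.decompositionSubgroup ℚ)
    (stable : ∀ j, twist act σ (h j) ∈ genRing A.toSubring h)
    {f : M → K} (hf : f ∈ genRing A.toSubring h) : twist act σ f ∈ genRing A.toSubring h := by
  induction hf using Subring.closure_induction with
  | mem g hg =>
    rcases hg with ⟨a, ha, rfl⟩ | ⟨j, rfl⟩
    · rw [twist_const]
      exact const_mem_genRing A.toSubring h
        (((mem_decompositionSubgroup_iff_forall A σ).mp hσ a).mpr ha)
    · exact stable j
  | zero =>
    have := map_zero (twistHom act σ)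
    rw [twistHom_apply] at this
    rw [this]
    exact Subring.zero_mem _
  | one =>
    have := map_one (twistHom act σ)
    rw [twistHom_apply] at this
    rw [this]
    exact Subring.one_mem _
  | add f g _ _ hf hg =>
    have := map_add (twistHom act σ) f g
    rw [twistHom_apply, twistHom_apply, twistHom_apply] at this
    rw [this]
    exact Subring.add_mem _ hf hg
  | neg f _ hf =>
    have := map_neg (twistHom act σ) f
    rw [twistHom_apply, twistHom_apply] at this
    rw [this]
    exact Subring.neg_mem _ hf
  | mul f g _ _ hf hg =>
    have := map_mul (twistHom act σ) f g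
    rw [twistHom_apply, twistHom_apply, twistHom_apply] at this
    rw [this]
    exact Subring.mul_mem _ hf hg

end Twist

section Trace

variable {M : Type} (act : GQ → M → M)
variable (act_one : ∀ x, act 1 x = x) (act_mul : ∀ σ τ x, act (σ * τ) x = act σ (act τ x))
variable (H : Subgroup GQ)

include act_one act_mul in
/-- Elements of the same left coset of a subgroup fixing `F` twist `F` in the same way. -/
lemma twist_eq_of_coset (F : M → K) (hF : ∀ η ∈ H, twist act η F = F) (g₁ g₂ : GQ)
    (hg : (g₁ : GQ ⧸ H) = (g₂ : GQ ⧸ H)) : twist act g₁ F = twist act g₂ F := by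
  have h1 : g₁⁻¹ * g₂ ∈ H := QuotientGroup.eq.mp hg
  have h2 : g₂ = g₁ * (g₁⁻¹ * g₂) := by group
  rw [h2, twist_mul act act_mul, hF _ h1]

variable [Fintype (GQ ⧸ H)]

/-- The sum of the twists of `F` over the left cosets of `H`. -/
noncomputable def cosetTrace (rep : GQ ⧸ H → GQ) (F : M → K) : M → K :=
  ∑ q : GQ ⧸ H, twist act (rep q) F

include act_one act_mul in
/-- The coset trace of an `H`-fixed function is fixed by the whole group. -/
lemma twist_cosetTrace (rep : GQ ⧸ H → GQ) (hrep : ∀ q, (rep q : GQ ⧸ H) = q)
    (F : M → K) (hF : ∀ η ∈ H, twist act η F = F) (σ : GQ) :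
    twist act σ (cosetTrace act H rep F) = cosetTrace act H rep F := by
  unfold cosetTrace
  rw [twist_sum]
  have h1 : ∀ q : GQ ⧸ H, twist act σ (twist act (rep q) F) = twist act (rep (σ • q)) F := by
    intro q
    rw [← twist_mul act act_mul]
    apply twist_eq_of_coset act act_one act_mul H F hF
    rw [hrep (σ • q)]
    conv_rhs => rw [← hrep q]
    rfl
  rw [Finset.sum_congr rfl (fun q _ => h1 q)]
  exact Fintype.sum_equiv (MulAction.toPerm σ) _ _ (fun q => rfl)

end Trace

end Fermat.Agent.Lib.HopfOrderLoc
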