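import Fermat.Agent.Lib.HopfOrderLoc.Defs

/-!
# Valuation subrings of `ℚ̄` over `ℓ` have rank one (item 71 / S19, helper32)

* `exists_pow_prime_le` : for `d ≠ 0` some power of `ℓ` has valuation `≤` that of `d`;
* `exists_pow_le_prime` : for `x` in the maximal ideal some power of `x` is divisible by `ℓ`;
* `exists_pow_le` : for `z` in the maximal ideal and `t ≠ 0` some power of `z` has valuation
  `≤` that of `t`.
-/

set_option autoImplicit false

open Polynomial

namespace Fermat.Agent.Lib.HopfOrderLoc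

open Fermat.Agent.Lib.FrobExists

local notation "K" => AlgebraicClosure ℚ

/-- The value of an integer polynomial at an element of `A` lies in `A`. -/
lemma valuation_aeval_le_one (A : ValuationSubring K) (d : K) (hd : A.valuation d ≤ 1)
    (r : ℤ[X]) : A.valuation (aeval d r) ≤ 1 := by
  rw [aeval_eq_sum_range]
  apply Valuation.map_sum_le
  intro i _
  rw [zsmul_eq_mul, map_mul, map_pow]
  calc A.valuation ((r.coeff i : ℤ) : K) * A.valuation d ^ i
      ≤ 1 * 1 := mul_le_mul' (valuation_intCast_le_one A _) (pow_le_one' hd i)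
    _ = 1 := one_mul 1

/-- The valuation of a nonzero integer is a power of the valuation of `ℓ`. -/
lemma valuation_intCast_eq_pow (ℓ : ℕ) (hℓ : ℓ.Prime) (A : ValuationSubring K)
    (hA : A.LiesOverPrime ℓ) (c : ℤ) (hc : c ≠ 0) :
    ∃ N : ℕ, A.valuation ((c : ℤ) : K) = A.valuation ((ℓ : K) ^ N) := by
  have hA' : (ℓ : K) ∈ A.nonunits := hA
  have hn : c.natAbs ≠ 0 := Int.natAbs_ne_zero.mpr hc
  obtain ⟨e, m, hm, hcm⟩ := Nat.exists_eq_pow_mul_and_not_dvd hn ℓ hℓ.ne_one
  refine ⟨e, ?_⟩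
  have h1 : A.valuation ((c : ℤ) : K) = A.valuation ((c.natAbs : ℕ) : K) := by
    rcases Int.natAbs_eq c with h | h
    · conv_lhs => rw [h]
      simp
    · conv_lhs => rw [h]
      simp
  rw [h1, hcm]
  push_cast
  rw [map_mul]
  have h2 : A.valuation ((m : ℕ) : K) = 1 := by
    have := valuation_intCast_eq_one A ℓ hℓ hA' (m : ℤ) (by exact_mod_cast hm)
    simpa using this
  rw [h2, mul_one]

/-- **Rank one, I**: for `d ≠ 0` some power of `ℓ` has valuation `≤` that of `d`. -/
theorem exists_pow_prime_le (ℓ : ℕ) (hℓ : ℓ.Prime) (A : ValuationSubring K)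
    (hA : A.LiesOverPrime ℓ) (d : K) (hd : d ≠ 0) :
    ∃ N : ℕ, A.valuation ((ℓ : K) ^ N) ≤ A.valuation d := by
  by_cases hv : A.valuation d ≤ 1
  swap
  · exact ⟨0, by rw [pow_zero, map_one]; exact le_of_lt (not_le.mp hv)⟩
  obtain ⟨p, hp0, hpd⟩ := isAlgebraic_int_qbar d
  obtain ⟨q, hpq, hq⟩ := exists_eq_pow_rootMultiplicity_mul_and_not_dvd p hp0 (0 : ℤ)
  have hq0 : q.coeff 0 ≠ 0 := by
    intro h
    apply hq
    rw [C_0, sub_zero]
    exact X_dvd_iff.mpr h
  have hqd : aeval d q = 0 := by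
    rw [hpq, map_mul, map_pow, map_sub, aeval_X, aeval_C, map_zero, sub_zero] at hpd
    rcases mul_eq_zero.mp hpd with h | h
    · exact absurd (eq_zero_of_pow_eq_zero h) hd
    · exact h
  have hsplit : q = q.divX * X + C (q.coeff 0) := (divX_mul_X_add q).symm
  have h1 : ((q.coeff 0 : ℤ) : K) = - (aeval d q.divX * d) := by
    have h2 : aeval d q = aeval d q.divX * d + ((q.coeff 0 : ℤ) : K) := by
      conv_lhs => rw [hsplit]
      rw [map_add, map_mul, aeval_X, aeval_C]
      simp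
    rw [hqd] at h2
    linear_combination -h2
  obtain ⟨N, hN⟩ := valuation_intCast_eq_pow ℓ hℓ A hA (q.coeff 0) hq0
  refine ⟨N, ?_⟩
  rw [← hN, h1, Valuation.map_neg, map_mul]
  calc A.valuation (aeval d q.divX) * A.valuation d
      ≤ 1 * A.valuation d := mul_le_mul_left (valuation_aeval_le_one A d hv _) _
    _ = A.valuation d := one_mul _

/-- **Rank one, II**: some power of an element of the maximal ideal is divisible by `ℓ`. -/
theorem exists_pow_le_prime (ℓ : ℕ) (hℓ : ℓ.Prime) (A : ValuationSubring K)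
    (hA : A.LiesOverPrime ℓ) (x : K) (hx : A.valuation x < 1) :
    ∃ n : ℕ, A.valuation x ^ n ≤ A.valuation (ℓ : K) := by
  by_contra hcon
  simp only [not_exists, not_le] at hcon
  have hx0 : x ≠ 0 := by
    intro h
    have := hcon 1
    rw [h, map_zero, pow_one] at this
    exact not_lt_zero this
  have hvx0 : 0 < A.valuation x := by
    rw [Valuation.pos_iff]
    exact hx0
  obtain ⟨f, hfx, i₁, hi₁⟩ := exists_prim_poly ℓ hℓ x (isAlgebraic_int_qbar x)
  classical
  have hex : ∃ i, ¬ (ℓ : ℤ) ∣ f.coeff i := ⟨i₁, hi₁⟩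
  set i₀ := Nat.find hex with hi₀
  have hi₀P : ¬ (ℓ : ℤ) ∣ f.coeff i₀ := Nat.find_spec hex
  have hlt : ∀ i, i < i₀ → (ℓ : ℤ) ∣ f.coeff i := fun i hi => by
    by_contra h
    exact Nat.find_min hex hi h
  have hA' : (ℓ : K) ∈ A.nonunits := hA
  have hi₀n : i₀ ∈ Finset.range (f.natDegree + 1) := by
    rw [Finset.mem_range, Nat.lt_succ_iff]
    exact le_natDegree_of_ne_zero (fun h => hi₀P (h ▸ dvd_zero _))
  rw [aeval_eq_sum_range, ← Finset.add_sum_erase _ _ hi₀n] at hfx
  have hterm : A.valuation (f.coeff i₀ • x ^ i₀) = A.valuation x ^ i₀ := by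
    rw [zsmul_eq_mul, map_mul, map_pow, valuation_intCast_eq_one A ℓ hℓ hA' _ hi₀P, one_mul]
  have hne : A.valuation x ^ i₀ ≠ 0 := pow_ne_zero _ (ne_of_gt hvx0)
  have hsum : A.valuation (∑ i ∈ (Finset.range (f.natDegree + 1)).erase i₀, f.coeff i • x ^ i) <
      A.valuation x ^ i₀ := by
    apply Valuation.map_sum_lt _ hne
    intro i hi
    rw [Finset.mem_erase] at hi
    rw [zsmul_eq_mul, map_mul, map_pow]
    rcases lt_or_gt_of_ne hi.1 with h | h
    · obtain ⟨c, hc⟩ := hlt i h
      have h1 : A.valuation ((f.coeff i : ℤ) : K) ≤ A.valuation (ℓ : K) := by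
        rw [hc]
        push_cast
        rw [map_mul]
        calc A.valuation (ℓ : K) * A.valuation ((c : ℤ) : K)
            ≤ A.valuation (ℓ : K) * 1 := mul_le_mul_right (valuation_intCast_le_one A c) _
          _ = A.valuation (ℓ : K) := mul_one _
      calc A.valuation ((f.coeff i : ℤ) : K) * A.valuation x ^ i
          ≤ A.valuation (ℓ : K) * 1 := mul_le_mul' h1 (pow_le_one' (le_of_lt hx) i)
        _ = A.valuation (ℓ : K) := mul_one _
        _ < A.valuation x ^ i₀ := hcon i₀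
    · calc A.valuation ((f.coeff i : ℤ) : K) * A.valuation x ^ i
          ≤ 1 * A.valuation x ^ i := mul_le_mul_left (valuation_intCast_le_one A _) _
        _ = A.valuation x ^ i := one_mul _
        _ < A.valuation x ^ i₀ := pow_lt_pow_right_of_lt_one₀ hvx0 hx h
  have h3 : f.coeff i₀ • x ^ i₀ =
      - ∑ i ∈ (Finset.range (f.natDegree + 1)).erase i₀, f.coeff i • x ^ i := by
    linear_combination hfx
  rw [h3, Valuation.map_neg] at hterm
  rw [hterm] at hsum
  exact lt_irrefl _ hsum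

/-- **Rank one, III**: for `z` in the maximal ideal and `t ≠ 0`, some power of `z` has
valuation `≤` that of `t`. -/
theorem exists_pow_le (ℓ : ℕ) (hℓ : ℓ.Prime) (A : ValuationSubring K)
    (hA : A.LiesOverPrime ℓ) (z t : K) (hz : A.valuation z < 1) (ht : t ≠ 0) :
    ∃ n : ℕ, A.valuation z ^ n ≤ A.valuation t := by
  obtain ⟨n₁, hn₁⟩ := exists_pow_le_prime ℓ hℓ A hA z hz
  obtain ⟨N, hN⟩ := exists_pow_prime_le ℓ hℓ A hA t ht
  refine ⟨n₁ * N, ?_⟩
  rw [pow_mul]
  calc (A.valuation z ^ n₁) ^ N ≤ A.valuation (ℓ : K) ^ N := pow_le_pow_left' hn₁ N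
    _ = A.valuation ((ℓ : K) ^ N) := (map_pow _ _ _).symm
    _ ≤ A.valuation t := hN

/-- Monotonicity: larger powers of an element of `A` have smaller valuation. -/
lemma valuation_pow_le_of_le (A : ValuationSubring K) (z : K) (hz : A.valuation z ≤ 1)
    {m n : ℕ} (hmn : m ≤ n) : A.valuation z ^ n ≤ A.valuation z ^ m := by
  obtain ⟨k, rfl⟩ := Nat.exists_eq_add_of_le hmn
  rw [pow_add]
  calc A.valuation z ^ m * A.valuation z ^ k ≤ A.valuation z ^ m * 1 :=
        mul_le_mul_right (pow_le_one' hz k) _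
    _ = A.valuation z ^ m := mul_one _

end Fermat.Agent.Lib.HopfOrderLoc
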